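/-
GATE-F / GF-KCOVER-INST-FIELD-INT, file 1 (helper56): **descent of the Gauss fraction to a
subfield of constants.**

`L` a field, `S` a subfield, `A` a valuation subring of `L`.  An element `u ≠ 0` of the modular
function field `L(j(q^d) : d ∣ N) ⊆ L((q))` all of whose `q`-coefficients lie in `S` is a Gauss
fraction `u · b = c · a` with `a, b ∈ A((q))` in the field, each having a coefficient `1`, and
**`c ∈ S`**.

Proof.  `u · Q₀(j) = P₀(j)` with `P₀, Q₀` polynomials over `L`.  For an `S`-linear functional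
`λ : L → S` put `P := λ(P₀)`, `Q := λ(Q₀)` (coefficientwise).  Since `u · J_d` and `J_d` have
`S`-coefficients (`J_d` the monomials in the `j(q^d)`), `u · Q(j) = P(j)` still holds; `λ` is
chosen not to kill one `q`-coefficient of `Q₀(j)`.  `GU.exists_gauss_normalisation_aeval` normalises
`P(j)`, `Q(j)` by one of their own `q`-coefficients, which lie in `S`.
-/
import Mathlib
import Fermat.Agent.GJ.GU.GaussFrac

set_option autoImplicit false

noncomputable section

namespace Fermat.Agent.GF.KCover.Int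

open HahnSeries ModularCurve
open Fermat.Agent.S24_helper62 (DivIdx jFam exists_div_of_mem_full aeval_jFam_mem_full)
open Fermat.Agent.GJ.GU

variable {L : Type*} [Field L] (S : Subfield L)

/-- all the coefficients of the Laurent series lie in `S`. -/
def CoeffIn (f : LaurentSeries L) : Prop := ∀ n : ℤ, f.coeff n ∈ S

variable {S}

theorem CoeffIn.mul {f g : LaurentSeries L} (hf : CoeffIn S f) (hg : CoeffIn S g) :
    CoeffIn S (f * g) := by
  intro n
  rw [HahnSeries.coeff_mul]
  exact S.sum_mem fun ij _ => S.mul_mem (hf _) (hg _)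

/-- the `ℤ`-span of a subset of `S` stays in `S`. -/
theorem mem_of_mem_span_int {T : Set L} (hT : ∀ t ∈ T, t ∈ S) {x : L}
    (hx : x ∈ Submodule.span ℤ T) : x ∈ S := by
  induction hx using Submodule.span_induction with
  | mem t ht => exact hT t ht
  | zero => exact S.zero_mem
  | add x y _ _ hx hy => exact S.add_mem hx hy
  | smul z x _ hx => exact S.zsmul_mem hx z

variable (N : ℕ) [NeZero N]

/-- a polynomial expression in the `j(q^d)` with coefficients in `S` has `q`-coefficients in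
`S`. -/
theorem coeffIn_aeval {P : MvPolynomial (DivIdx N) L} (hP : ∀ d, P.coeff d ∈ S) :
    CoeffIn S (MvPolynomial.aeval (jFam L N) P) := by
  intro n
  have hfam : jFam L N = fun d : DivIdx N =>
      coeffMap (Int.castRingHom L) (qExpand ℤ d.1 (jqModC ℤ)) :=
    funext fun d => jFam_eq_coeffMap N d
  have h := coeff_aeval_mem_span (fun d : DivIdx N => qExpand ℤ d.1 (jqModC ℤ)) P n
  rw [← hfam] at h
  refine mem_of_mem_span_int ?_ h
  rintro _ ⟨d, -, rfl⟩
  exact hP d

/-- the monomials in the `j(q^d)`. -/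
def Jmon (d : DivIdx N →₀ ℕ) : LaurentSeries L :=
  d.prod fun i k => jFam L N i ^ k

theorem aeval_monomial_eq (d : DivIdx N →₀ ℕ) (a : L) :
    MvPolynomial.aeval (jFam L N) (MvPolynomial.monomial d a)
      = HahnSeries.single 0 a * Jmon (L := L) N d := by
  rw [MvPolynomial.aeval_monomial, algebraMap_laurentSeries_eq_single, Jmon]

theorem coeffIn_Jmon (d : DivIdx N →₀ ℕ) : CoeffIn S (Jmon (L := L) N d) := by
  have h : Jmon (L := L) N d
      = MvPolynomial.aeval (jFam L N) (MvPolynomial.monomial d (1 : L)) := by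
    rw [aeval_monomial_eq]
    have : (HahnSeries.single 0 (1 : L) : LaurentSeries L) = 1 := rfl
    rw [this, one_mul]
  rw [h]
  refine coeffIn_aeval N fun d' => ?_
  rw [MvPolynomial.coeff_monomial]
  split_ifs
  · exact S.one_mem
  · exact S.zero_mem

/-- the polynomial with prescribed coefficients on a finite set of exponents. -/
def polyOf (T : Finset (DivIdx N →₀ ℕ)) (a : (DivIdx N →₀ ℕ) → L) : MvPolynomial (DivIdx N) L :=
  ∑ d ∈ T, MvPolynomial.monomial d (a d)

omit [NeZero N] in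
theorem coeff_polyOf_mem (T : Finset (DivIdx N →₀ ℕ)) {a : (DivIdx N →₀ ℕ) → L}
    (ha : ∀ d, a d ∈ S) (d : DivIdx N →₀ ℕ) : (polyOf N T a).coeff d ∈ S := by
  rw [polyOf, MvPolynomial.coeff_sum]
  refine S.sum_mem fun d' _ => ?_
  rw [MvPolynomial.coeff_monomial]
  split_ifs
  · exact ha d'
  · exact S.zero_mem

omit [NeZero N] in
theorem polyOf_support_coeff (P : MvPolynomial (DivIdx N) L) :
    polyOf N P.support (fun d => P.coeff d) = P :=
  P.support_sum_monomial_coeff

theorem aeval_polyOf (T : Finset (DivIdx N →₀ ℕ)) (a : (DivIdx N →₀ ℕ) → L) :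
    MvPolynomial.aeval (jFam L N) (polyOf N T a)
      = ∑ d ∈ T, HahnSeries.single 0 (a d) * Jmon (L := L) N d := by
  rw [polyOf, map_sum]
  exact Finset.sum_congr rfl fun d _ => aeval_monomial_eq N d (a d)

/-- **the coefficient formula**. -/
theorem coeff_mul_aeval_polyOf (w : LaurentSeries L) (T : Finset (DivIdx N →₀ ℕ))
    (a : (DivIdx N →₀ ℕ) → L) (n : ℤ) :
    (w * MvPolynomial.aeval (jFam L N) (polyOf N T a)).coeff n
      = ∑ d ∈ T, a d * (w * Jmon (L := L) N d).coeff n := by
  rw [aeval_polyOf, Finset.mul_sum]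
  rw [← HahnSeries.coeff.addMonoidHom_apply, map_sum]
  refine Finset.sum_congr rfl fun d _ => ?_
  rw [HahnSeries.coeff.addMonoidHom_apply, mul_left_comm, HahnSeries.coeff_single_zero_mul]

theorem coeffIn_one : CoeffIn S (1 : LaurentSeries L) := by
  intro n
  rw [HahnSeries.coeff_one]
  split_ifs
  · exact S.one_mem
  · exact S.zero_mem

/-- an `S`-linear functional, applied coefficientwise to a polynomial. -/
def dualPoly (φ : Module.Dual S L) (R : MvPolynomial (DivIdx N) L) : MvPolynomial (DivIdx N) L :=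
  polyOf N R.support fun d => ((φ (R.coeff d) : S) : L)

omit [NeZero N] in
theorem coeff_dualPoly_mem (φ : Module.Dual S L) (R : MvPolynomial (DivIdx N) L)
    (d : DivIdx N →₀ ℕ) : (dualPoly N φ R).coeff d ∈ S :=
  coeff_polyOf_mem N _ (fun d => (φ (R.coeff d)).2) d

theorem dual_mul_mem (φ : Module.Dual S L) (x : L) {s : L} (hs : s ∈ S) :
    ((φ (x * s) : S) : L) = ((φ x : S) : L) * s := by
  have h1 : x * s = (⟨s, hs⟩ : S) • x := by
    rw [Algebra.smul_def, mul_comm]; rfl
  rw [h1, map_smul, smul_eq_mul, mul_comm]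
  rfl

/-- **the key identity**: a functional commutes with `R ↦ (w · R(j))_n` when `w` has
coefficients in `S`. -/
theorem coeff_mul_aeval_dualPoly (φ : Module.Dual S L) {w : LaurentSeries L} (hw : CoeffIn S w)
    (R : MvPolynomial (DivIdx N) L) (n : ℤ) :
    (w * MvPolynomial.aeval (jFam L N) (dualPoly N φ R)).coeff n
      = ((φ ((w * MvPolynomial.aeval (jFam L N) R).coeff n) : S) : L) := by
  rw [dualPoly, coeff_mul_aeval_polyOf]
  conv_rhs => rw [← polyOf_support_coeff N R, coeff_mul_aeval_polyOf]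
  rw [map_sum, AddSubmonoidClass.coe_finsetSum]
  refine Finset.sum_congr rfl fun d _ => ?_
  exact (dual_mul_mem φ _ ((hw.mul (coeffIn_Jmon N d)) n)).symm

/-- **descent of the presentation** `u = P(j) / Q(j)` to polynomials with coefficients in `S`. -/
theorem exists_aeval_eq_of_coeffIn {u : LaurentSeries L} (hu : u ∈ modularFunctionFieldFullC L N)
    (hu0 : u ≠ 0) (huS : CoeffIn S u) :
    ∃ P Q : MvPolynomial (DivIdx N) L, (∀ d, P.coeff d ∈ S) ∧ (∀ d, Q.coeff d ∈ S) ∧
      MvPolynomial.aeval (jFam L N) P ≠ 0 ∧ MvPolynomial.aeval (jFam L N) Q ≠ 0 ∧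
      u * MvPolynomial.aeval (jFam L N) Q = MvPolynomial.aeval (jFam L N) P := by
  obtain ⟨P₀, Q₀, hPQ⟩ := exists_div_of_mem_full L N hu
  have hQ₀ : MvPolynomial.aeval (jFam L N) Q₀ ≠ 0 := by
    intro h; apply hu0; rw [hPQ, h, div_zero]
  have hrel : u * MvPolynomial.aeval (jFam L N) Q₀ = MvPolynomial.aeval (jFam L N) P₀ := by
    rw [hPQ, div_mul_cancel₀ _ hQ₀]
  -- a nonzero coefficient of `Q₀(j)`
  obtain ⟨n₀, hn₀⟩ : ∃ n : ℤ, (MvPolynomial.aeval (jFam L N) Q₀).coeff n ≠ 0 := by
    by_contra h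
    apply hQ₀
    ext n
    by_contra hn
    exact h ⟨n, hn⟩
  obtain ⟨φ, hφ⟩ := Module.Projective.exists_dual_ne_zero S hn₀
  have hrelφ : u * MvPolynomial.aeval (jFam L N) (dualPoly N φ Q₀)
      = MvPolynomial.aeval (jFam L N) (dualPoly N φ P₀) := by
    ext n
    rw [coeff_mul_aeval_dualPoly N φ huS, hrel]
    have h1 := coeff_mul_aeval_dualPoly N φ (coeffIn_one (S := S)) P₀ n
    rw [one_mul, one_mul] at h1
    exact h1.symm
  have hQ : MvPolynomial.aeval (jFam L N) (dualPoly N φ Q₀) ≠ 0 := by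
    intro h0
    have h1 := coeff_mul_aeval_dualPoly N φ (coeffIn_one (S := S)) Q₀ n₀
    rw [one_mul, one_mul, h0, HahnSeries.coeff_zero] at h1
    apply hφ
    exact Subtype.ext h1.symm
  refine ⟨dualPoly N φ P₀, dualPoly N φ Q₀, coeff_dualPoly_mem N φ P₀, coeff_dualPoly_mem N φ Q₀,
    ?_, hQ, hrelφ⟩
  intro h0
  rw [h0] at hrelφ
  rcases mul_eq_zero.mp hrelφ with h | h
  · exact hu0 h
  · exact hQ h

/-- the normalising constant of `GU.exists_gauss_normalisation` is a coefficient of the series. -/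
theorem const_eq_coeff (A : ValuationSubring L) {f : LaurentSeries L} {c : L}
    {g : LaurentSeries A} (hf : f = HahnSeries.C c * coeffMap A.subtype g) {n₀ : ℤ}
    (hn₀ : g.coeff n₀ = 1) : c = f.coeff n₀ := by
  rw [hf, HahnSeries.C_mul_eq_smul, HahnSeries.coeff_smul, coeffMap_coeff, hn₀]
  simp

/-- **Gauss fractions with the constant in `S`**: an element of `L(j(q^d) : d ∣ N)` with
`q`-coefficients in `S` is `c · a / b`, `a, b ∈ A((q))` in the field with a coefficient `1`, and
`c ∈ S`. -/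
theorem exists_gaussFrac_coeffIn (A : ValuationSubring L) {u : LaurentSeries L}
    (hu : u ∈ modularFunctionFieldFullC L N) (hu0 : u ≠ 0) (huS : CoeffIn S u) :
    ∃ (c : L) (a b : LaurentSeries A), c ≠ 0 ∧ c ∈ S ∧
      coeffMap A.subtype a ∈ modularFunctionFieldFullC L N ∧
      coeffMap A.subtype b ∈ modularFunctionFieldFullC L N ∧
      (∃ n : ℤ, a.coeff n = 1) ∧ (∃ n : ℤ, b.coeff n = 1) ∧
      u * coeffMap A.subtype b = HahnSeries.C c * coeffMap A.subtype a := by
  obtain ⟨P, Q, hPS, hQS, hP, hQ, hrel⟩ := exists_aeval_eq_of_coeffIn N hu hu0 huS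
  obtain ⟨cP, a, hcP, haP, nP, hnP⟩ := exists_gauss_normalisation_aeval A N P hP
  obtain ⟨cQ, b, hcQ, hbQ, nQ, hnQ⟩ := exists_gauss_normalisation_aeval A N Q hQ
  have hcPS : cP ∈ S := by
    rw [const_eq_coeff A haP hnP]; exact coeffIn_aeval N hPS nP
  have hcQS : cQ ∈ S := by
    rw [const_eq_coeff A hbQ hnQ]; exact coeffIn_aeval N hQS nQ
  have hCP : (HahnSeries.C cP : LaurentSeries L) ≠ 0 := HahnSeries.C_ne_zero hcP
  have hCQ : (HahnSeries.C cQ : LaurentSeries L) ≠ 0 := HahnSeries.C_ne_zero hcQ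
  have hCmem : ∀ c : L, (HahnSeries.C c : LaurentSeries L) ∈ modularFunctionFieldFullC L N := by
    intro c
    have : (HahnSeries.C c : LaurentSeries L) = algebraMap L (LaurentSeries L) c := by
      rw [algebraMap_laurentSeries_eq_single]; rfl
    rw [this]
    exact (modularFunctionFieldFullC L N).algebraMap_mem c
  have hamem : coeffMap A.subtype a ∈ modularFunctionFieldFullC L N := by
    have h1 : coeffMap A.subtype a = (HahnSeries.C cP)⁻¹ * MvPolynomial.aeval (jFam L N) P := by
      rw [haP, ← mul_assoc, inv_mul_cancel₀ hCP, one_mul]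
    rw [h1]
    exact mul_mem (inv_mem (hCmem cP)) (aeval_jFam_mem_full L N P)
  have hbmem : coeffMap A.subtype b ∈ modularFunctionFieldFullC L N := by
    have h1 : coeffMap A.subtype b = (HahnSeries.C cQ)⁻¹ * MvPolynomial.aeval (jFam L N) Q := by
      rw [hbQ, ← mul_assoc, inv_mul_cancel₀ hCQ, one_mul]
    rw [h1]
    exact mul_mem (inv_mem (hCmem cQ)) (aeval_jFam_mem_full L N Q)
  refine ⟨cP / cQ, a, b, div_ne_zero hcP hcQ, S.div_mem hcPS hcQS, hamem, hbmem, ⟨nP, hnP⟩,
    ⟨nQ, hnQ⟩, ?_⟩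
  have h2 : u * (HahnSeries.C cQ * coeffMap A.subtype b) = HahnSeries.C cP * coeffMap A.subtype a := by
    rw [← hbQ, ← haP]; exact hrel
  rw [map_div₀]
  field_simp
  rw [← h2]
  ring

end Fermat.Agent.GF.KCover.Int

end
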