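/-
GATE-F / GF-KCOVER-INST-FIELD-INT, file 2 (helper56): **`K′`-integrality of both Gauss valuations on
the `Γ`-fixed functions of `F_N = ℚ̄(X₀(N))`.**

`Γ ⊆ G_ℚ` any set of automorphisms, `u ∈ F_N`, `u ≠ 0`, fixed by the coefficientwise action of every
`σ ∈ Γ`.  Then there is a **`Γ`-fixed** constant `c ≠ 0` such that `c · u` is a unit of the Gauss
valuation ring `w₁` (`galVal1 N A`), and likewise for `w₂ = w₁ ∘ W_q` (`galVal2 N A h`).
(`GalVal.unram` alone only gives `c ∈ ℚ̄`.)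

For `Γ = I′ = {ρ ∈ I_A : ρ ζ = ζ}` (`IsTameFix A ζ`) this gives, with helper31's
`PeuBridge.exists_zpow_of_fixed`: `W.valuation u = W.valuation (1 − ζ) ^ n`, `n ∈ ℤ` unique: the
valuations `w₁, w₂` are `ℤ`-valued (in `(1 − ζ)`-units) on the `K′`-rational functions.
-/
import Fermat.Agent.GF.KCover.Int.Descent
import Fermat.Agent.GK.SS.GalValInst
import Fermat.Agent.GF.F2Asm.PeuBridge

set_option autoImplicit false

noncomputable section

namespace Fermat.Agent.GF.KCover.Int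

open HahnSeries ModularCurve
open Fermat.Agent.GJ.J1.Val Fermat.Agent.GK.SS Fermat.Agent.GK.AL Fermat.Agent.GJ.Kum.KumType
open Fermat.Agent.GJ.KumGroup
open Fermat.Agent.S24_helper62 (modularFunctionFieldBar_eq)

local notation "Qb" => AlgebraicClosure ℚ
local notation "GQ" => (AlgebraicClosure ℚ ≃ₐ[ℚ] AlgebraicClosure ℚ)

/-- the subfield of `ℚ̄` fixed by a set of automorphisms. -/
def fixedSub (Γ : Set GQ) : Subfield Qb where
  carrier := {x | ∀ σ ∈ Γ, σ x = x}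
  mul_mem' := by
    intro x y hx hy σ hσ
    rw [map_mul, hx σ hσ, hy σ hσ]
  one_mem' := fun σ _ => map_one σ
  add_mem' := by
    intro x y hx hy σ hσ
    rw [map_add, hx σ hσ, hy σ hσ]
  zero_mem' := fun σ _ => map_zero σ
  neg_mem' := by
    intro x hx σ hσ
    rw [map_neg, hx σ hσ]
  inv_mem' := by
    intro x hx σ hσ
    rw [map_inv₀, hx σ hσ]

theorem mem_fixedSub {Γ : Set GQ} {x : Qb} : x ∈ fixedSub Γ ↔ ∀ σ ∈ Γ, σ x = x := Iff.rfl

variable (N : ℕ) [NeZero N] (A : ValuationSubring Qb)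

omit [NeZero N] in
/-- a function fixed by the coefficientwise action of `Γ` has `Γ`-fixed `q`-coefficients. -/
theorem coeffIn_of_fixed {Γ : Set GQ} {u : FK N}
    (hfix : ∀ σ ∈ Γ, arithmeticRingAut (modularFunctionFieldFull N) σ u = u) :
    CoeffIn (fixedSub Γ) (u : LaurentSeries Qb) := by
  intro n σ hσ
  have h1 : coeffMap (σ : Qb →+* Qb) (u : LaurentSeries Qb) = (u : LaurentSeries Qb) :=
    congrArg (fun x : FK N => (x : LaurentSeries Qb)) (hfix σ hσ)
  have h2 := congrArg (fun x : LaurentSeries Qb => x.coeff n) h1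
  simpa [coeffMap_coeff] using h2

/-- **`Γ`-fixed functions are `Γ`-fixed constants times `w₁`-units.** -/
theorem exists_fixed_const_mul_unit₁ (Γ : Set GQ) (u : FK N) (hu : u ≠ 0)
    (hfix : ∀ σ ∈ Γ, arithmeticRingAut (modularFunctionFieldFull N) σ u = u) :
    ∃ c : Qb, c ≠ 0 ∧ (∀ σ ∈ Γ, σ c = c) ∧
      algebraMap Qb (FK N) c * u ∈ (galVal1 N A).W ∧
      (algebraMap Qb (FK N) c * u)⁻¹ ∈ (galVal1 N A).W := by
  have huL : (u : LaurentSeries Qb) ≠ 0 := fun h => hu (Subtype.ext h)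
  have humem : (u : LaurentSeries Qb) ∈ modularFunctionFieldFullC Qb N :=
    (SetLike.ext_iff.mp (modularFunctionFieldBar_eq N) (u : LaurentSeries Qb)).mp u.2
  obtain ⟨c, a, b, hc, hcS, ha, hb, ha1, hb1, hxb⟩ :=
    exists_gaussFrac_coeffIn N A humem huL (coeffIn_of_fixed N hfix)
  rw [← modularFunctionFieldBar_eq] at ha hb
  have ha0 := Fermat.Agent.GJ.GU.coeffMap_residue_ne_zero A ha1
  have hb0 := Fermat.Agent.GJ.GU.coeffMap_residue_ne_zero A hb1
  have hC : (HahnSeries.single 0 c : LaurentSeries Qb) ≠ 0 := HahnSeries.single_ne_zero hc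
  have hCinv : (HahnSeries.single 0 c⁻¹ : LaurentSeries Qb) * HahnSeries.single 0 c = 1 := by
    rw [HahnSeries.single_mul_single, zero_add, inv_mul_cancel₀ hc]; rfl
  have hcoe : ((algebraMap Qb (FK N) c⁻¹ * u : FK N) : LaurentSeries Qb) =
      HahnSeries.single 0 c⁻¹ * (u : LaurentSeries Qb) := by
    rw [MulMemClass.coe_mul, ← algebraMap_laurentSeries_eq_single]
    rfl
  have hfrac : IsFrac A (modularFunctionFieldBar N)
      ((algebraMap Qb (FK N) c⁻¹ * u : FK N) : LaurentSeries Qb) a b := by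
    refine ⟨ha, hb, hb0, ?_⟩
    rw [hcoe, mul_assoc, hxb]
    have : (HahnSeries.C c : LaurentSeries Qb) = HahnSeries.single 0 c := rfl
    rw [this, ← mul_assoc, hCinv, one_mul]
  refine ⟨c⁻¹, inv_ne_zero hc, fun σ hσ => ?_, ⟨a, b, hfrac⟩, ⟨b, a, ?_⟩⟩
  · rw [map_inv₀, hcS σ hσ]
  · simpa using hfrac.inv ha0

variable {q : ℕ} (h : ExactDvd q N)

/-- **`Γ`-fixed functions are `Γ`-fixed constants times `w₂`-units.** -/
theorem exists_fixed_const_mul_unit₂ (Γ : Set GQ) (u : FK N) (hu : u ≠ 0)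
    (hfix : ∀ σ ∈ Γ, arithmeticRingAut (modularFunctionFieldFull N) σ u = u) :
    ∃ c : Qb, c ≠ 0 ∧ (∀ σ ∈ Γ, σ c = c) ∧
      algebraMap Qb (FK N) c * u ∈ (galVal2 N A h).W ∧
      (algebraMap Qb (FK N) c * u)⁻¹ ∈ (galVal2 N A h).W := by
  have hw0 : wAut h u ≠ 0 := (map_ne_zero_iff _ (wAut h).injective).2 hu
  have hwfix : ∀ σ ∈ Γ, arithmeticRingAut (modularFunctionFieldFull N) σ (wAut h u) = wAut h u := by
    intro σ hσ
    rw [← wAut_arithmeticRingAut h σ u, hfix σ hσ]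
  obtain ⟨c, hc, hcfix, h1, h2⟩ := exists_fixed_const_mul_unit₁ N A Γ (wAut h u) hw0 hwfix
  refine ⟨c, hc, hcfix, ?_, ?_⟩
  · show algebraMap Qb (FK N) c * u ∈ ((galVal1 N A).comap (wAut h) (wAut_arithmeticRingAut h)).W
    rw [GalVal.comap_W, ValuationSubring.mem_comap]
    show wAut h (algebraMap Qb (FK N) c * u) ∈ (galVal1 N A).W
    rw [map_mul, (wAut h).commutes]
    exact h1
  · show (algebraMap Qb (FK N) c * u)⁻¹ ∈
      ((galVal1 N A).comap (wAut h) (wAut_arithmeticRingAut h)).W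
    rw [GalVal.comap_W, ValuationSubring.mem_comap]
    show wAut h (algebraMap Qb (FK N) c * u)⁻¹ ∈ (galVal1 N A).W
    rw [map_inv₀, map_mul, (wAut h).commutes]
    exact h2

/-! ### The valuation in `(1 − ζ)`-units on the `K′`-rational functions -/

section Zpow

open Fermat.Agent.GF.Peu Fermat.Agent.GF.F2Asm.PeuBridge

variable {N A}

omit [NeZero N] in
/-- transport of a relation between valuations of constants to a `G_ℚ`-compatible valuation. -/
theorem GalVal_valuation_const_zpow (V : GalVal N A) {c d : Qb} (hd : d ≠ 0) {m : ℤ}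
    (hcd : A.valuation c = A.valuation d ^ m) :
    V.W.valuation (algebraMap Qb (FK N) c) = V.W.valuation (algebraMap Qb (FK N) d) ^ m := by
  have hvd : A.valuation d ≠ 0 := (Valuation.ne_zero_iff _).mpr hd
  have h1 : A.valuation (c / d ^ m) = 1 := by
    rw [map_div₀, map_zpow₀, hcd, div_self (zpow_ne_zero m hvd)]
  have h2 := V.val_const_eq_one h1
  rw [map_div₀, map_zpow₀, map_div₀, map_zpow₀] at h2
  have hd' : V.W.valuation (algebraMap Qb (FK N) d) ≠ 0 :=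
    (Valuation.ne_zero_iff _).mpr ((map_ne_zero_iff _ (algebraMap Qb (FK N)).injective).2 hd)
  exact (div_eq_one_iff_eq (zpow_ne_zero m hd')).mp h2

omit [NeZero N] in
/-- a function which is a fixed constant times a unit has valuation a power of `v(1 − ζ)`. -/
theorem exists_zpow_of_const_mul_unit (V : GalVal N A) {p : ℕ} [Fact p.Prime] {ζ : Qb}
    (hA : (p : Qb) ∈ A.nonunits) (hζ : IsPrimitiveRoot ζ p) {u : FK N} (hu : u ≠ 0) {c : Qb}
    (hc : c ≠ 0) (hcfix : ∀ ρ : GQ, IsTameFix A ζ ρ → ρ c = c)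
    (h1 : algebraMap Qb (FK N) c * u ∈ V.W) (h2 : (algebraMap Qb (FK N) c * u)⁻¹ ∈ V.W) :
    ∃ n : ℤ, V.W.valuation u = V.W.valuation (algebraMap Qb (FK N) (1 - ζ)) ^ n := by
  obtain ⟨m, hm⟩ := exists_zpow_of_fixed hA hζ hc hcfix
  have hπ0 : (1 - ζ : Qb) ≠ 0 :=
    Fermat.Agent.GL.Local.InertiaField.one_sub_zeta_ne_zero (Fact.out : p.Prime) hζ
  have h3 := GalVal_valuation_const_zpow V hπ0 hm
  have hc' : V.W.valuation (algebraMap Qb (FK N) c) ≠ 0 :=
    (Valuation.ne_zero_iff _).mpr ((map_ne_zero_iff _ (algebraMap Qb (FK N)).injective).2 hc)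
  have h4 : V.W.valuation (algebraMap Qb (FK N) c * u) = 1 :=
    (vs_val_eq_one_iff V.W).2 ⟨mul_ne_zero
      ((map_ne_zero_iff _ (algebraMap Qb (FK N)).injective).2 hc) hu, h1, h2⟩
  rw [map_mul] at h4
  refine ⟨-m, ?_⟩
  rw [zpow_neg, ← h3]
  exact eq_inv_of_mul_eq_one_right h4

variable (N A)

/-- **`w₁` is `ℤ`-valued in `(1 − ζ)`-units on the `I′`-fixed functions.** -/
theorem exists_zpow_valuation_of_fixed₁ {p : ℕ} [Fact p.Prime] {ζ : Qb}
    (hA : (p : Qb) ∈ A.nonunits) (hζ : IsPrimitiveRoot ζ p) (u : FK N) (hu : u ≠ 0)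
    (hfix : ∀ ρ : GQ, IsTameFix A ζ ρ → arithmeticRingAut (modularFunctionFieldFull N) ρ u = u) :
    ∃ n : ℤ, (galVal1 N A).W.valuation u
      = (galVal1 N A).W.valuation (algebraMap Qb (FK N) (1 - ζ)) ^ n := by
  obtain ⟨c, hc, hcfix, h1, h2⟩ :=
    exists_fixed_const_mul_unit₁ N A {ρ | IsTameFix A ζ ρ} u hu (fun ρ hρ => hfix ρ hρ)
  exact exists_zpow_of_const_mul_unit (galVal1 N A) hA hζ hu hc (fun ρ hρ => hcfix ρ hρ) h1 h2

/-- **`w₂` is `ℤ`-valued in `(1 − ζ)`-units on the `I′`-fixed functions.** -/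
theorem exists_zpow_valuation_of_fixed₂ {p : ℕ} [Fact p.Prime] {ζ : Qb}
    (hA : (p : Qb) ∈ A.nonunits) (hζ : IsPrimitiveRoot ζ p) (u : FK N) (hu : u ≠ 0)
    (hfix : ∀ ρ : GQ, IsTameFix A ζ ρ → arithmeticRingAut (modularFunctionFieldFull N) ρ u = u) :
    ∃ n : ℤ, (galVal2 N A h).W.valuation u
      = (galVal2 N A h).W.valuation (algebraMap Qb (FK N) (1 - ζ)) ^ n := by
  obtain ⟨c, hc, hcfix, h1, h2⟩ :=
    exists_fixed_const_mul_unit₂ N A h {ρ | IsTameFix A ζ ρ} u hu (fun ρ hρ => hfix ρ hρ)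
  exact exists_zpow_of_const_mul_unit (galVal2 N A h) hA hζ hu hc (fun ρ hρ => hcfix ρ hρ) h1 h2

variable {N A}

omit [NeZero N] in
/-- the exponent is unique. -/
theorem GalVal_zpow_unique (V : GalVal N A) {p : ℕ} [Fact p.Prime] {ζ : Qb}
    (hA : (p : Qb) ∈ A.nonunits) (hζ : IsPrimitiveRoot ζ p) {n m : ℤ}
    (hnm : V.W.valuation (algebraMap Qb (FK N) (1 - ζ)) ^ n
      = V.W.valuation (algebraMap Qb (FK N) (1 - ζ)) ^ m) : n = m := by
  have hp := (Fact.out : p.Prime)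
  have hπ0 : (1 - ζ : Qb) ≠ 0 := Fermat.Agent.GL.Local.InertiaField.one_sub_zeta_ne_zero hp hζ
  have hv0 : V.W.valuation (algebraMap Qb (FK N) (1 - ζ)) ≠ 0 :=
    (Valuation.ne_zero_iff _).mpr ((map_ne_zero_iff _ (algebraMap Qb (FK N)).injective).2 hπ0)
  have hv1 : V.W.valuation (algebraMap Qb (FK N) (1 - ζ)) < 1 :=
    V.val_const_lt_one ((A.mem_nonunits_iff).mp
      (Fermat.Agent.GL.Local.InertiaField.one_sub_zeta_mem_nonunits A hp hA hζ))
  exact (zpow_right_strictAnti₀ (zero_lt_iff.2 hv0) hv1).injective hnm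

end Zpow

end Fermat.Agent.GF.KCover.Int

end
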