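/-
GATE-F / GF-KCOVER-INST-FIELD-MOD, modular facts (M1)+(M3) (helper56, second seat of helper3):
**the `I′`-action on `F_N`, its fixed field `F_{K′}`, and the tame automorphisms `τ ∈ I_A` on it.**

`A ∣ p` a valuation subring of `ℚ̄`, `ζ` a primitive `p`-th root of unity, `I′ = tameGroup A ζ`.

* `tameActionFK` : the coefficientwise action of `I′` on `F_N` as a `MulSemiringAction` (a reducible
  DEF, not an instance); `compat_Fp` : helper3's `Field.Descent.Compat` for helper31's cover `T.Fp`;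
* `mem_fixedFK_iff` : membership in `FixedPoints.subfield I′ F_N` in the `arithmeticRingAut` spelling;
* `valuation_arith_eq` : `σ ∈ D_A` preserves the valuation of EVERY `G_ℚ`-compatible valuation
  (`GalVal`) of `F_N`;
* `conj_mem_tameGroup` : `I′` is normalised by `I_A`; `arith_mem_fixedFK` : `τ ∈ I_A` maps `F_{K′}`
  to itself; `tauFix τ : F_{K′} ≃+* F_{K′}`;
* `tauFix_pow_eq_one` : `τ ^ d ∈ I′ ⟹ (tauFix τ) ^ d = 1` (in particular `d = p − 1`:
  `pow_pred_mem_tameGroup`).
-/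
import Fermat.Agent.GF.KCover.Int.Modular
import Fermat.Agent.GF.F2Asm.Inst
import Fermat.Agent.GF.KCover.Field.Descent

set_option autoImplicit false
set_option linter.unusedSectionVars false
set_option linter.style.haveILetI false

noncomputable section

namespace Fermat.Agent.GF.KCover.Int

open ModularCurve
open Fermat.Agent.GK.SS Fermat.Agent.GJ.KumGroup Fermat.Agent.GF.Peu
open Fermat.Agent.GF.F2Asm.Inst

local notation "Qb" => AlgebraicClosure ℚ
local notation "GQ" => (AlgebraicClosure ℚ ≃ₐ[ℚ] AlgebraicClosure ℚ)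

variable (N : ℕ) [NeZero N] (A : ValuationSubring Qb) (ζ : Qb)

/-- **the coefficientwise action of `I′` on `F_N`** (a reducible def: use `letI`). -/
@[reducible] def tameActionFK : MulSemiringAction (tameGroup A ζ) (FK N) :=
  MulSemiringAction.compHom (FK N)
    ((arithmeticGalois (modularFunctionFieldFull N)).comp (tameGroup A ζ).subtype)

theorem tameActionFK_smul (ρ : tameGroup A ζ) (y : FK N) :
    letI := tameActionFK N A ζ
    ρ • y = arithmeticRingAut (modularFunctionFieldFull N) ρ.1 y := rfl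

/-- helper3's compatibility between the action on `F_N` and helper31's action on the cover. -/
theorem compat_Fp {p : ℕ} [Fact p.Prime] (T : TameDatum N p A ζ) :
    letI := tameActionFK N A ζ
    Fermat.Agent.GF.KCover.Field.Descent.Compat (F₁ := FK N) (F' := T.Fp) (tameGroup A ζ) :=
  fun ρ a => T.smul_algebraMap ρ a

/-- membership in the fixed field `F_{K′}`, `arithmeticRingAut` spelling. -/
theorem mem_fixedFK_iff {u : FK N} :
    letI := tameActionFK N A ζ
    u ∈ FixedPoints.subfield (tameGroup A ζ) (FK N) ↔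
      ∀ ρ : GQ, IsTameFix A ζ ρ → arithmeticRingAut (modularFunctionFieldFull N) ρ u = u := by
  letI := tameActionFK N A ζ
  constructor
  · intro h ρ hρ
    exact h ⟨ρ, hρ⟩
  · intro h ρ
    exact h ρ.1 ρ.2

variable {N A}

/-- **the decomposition group preserves every `G_ℚ`-compatible valuation.** -/
theorem valuation_arith_eq (V : GalVal N A) {q : ℕ} (hq : q.Prime) (hA : A.LiesOverPrime q)
    {σ : GQ} (hσ : σ ∈ A.decompositionSubgroup ℚ) (u : FK N) :
    V.W.valuation (arithmeticRingAut (modularFunctionFieldFull N) σ u) = V.W.valuation u := by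
  by_cases hu : u = 0
  · rw [hu, map_zero]
  obtain ⟨c, hc, h1, h2⟩ := V.unram u hu
  set σF := arithmeticRingAut (modularFunctionFieldFull N) σ with hσF
  have hcF : algebraMap Qb (FK N) c ≠ 0 :=
    (map_ne_zero_iff _ (algebraMap Qb (FK N)).injective).2 hc
  have hcu : algebraMap Qb (FK N) c * u ≠ 0 := mul_ne_zero hcF hu
  have hv1 : V.W.valuation (algebraMap Qb (FK N) c * u) = 1 :=
    (vs_val_eq_one_iff V.W).2 ⟨hcu, h1, h2⟩
  have hv2 : V.W.valuation (σF (algebraMap Qb (FK N) c * u)) = 1 := by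
    refine (vs_val_eq_one_iff V.W).2 ⟨(map_ne_zero_iff _ σF.injective).2 hcu,
      V.stable σ hσ _ h1, ?_⟩
    rw [← map_inv₀]
    exact V.stable σ hσ _ h2
  have hσc : σF (algebraMap Qb (FK N) c) = algebraMap Qb (FK N) (σ c) :=
    arithmeticRingAut_algebraMap (modularFunctionFieldFull N) σ c
  have hvc : V.W.valuation (algebraMap Qb (FK N) (σ c)) = V.W.valuation (algebraMap Qb (FK N) c) := by
    have h3 : A.valuation (σ c) = A.valuation c ^ (1 : ℤ) := by
      rw [zpow_one]
      exact Fermat.Agent.S13.Branch.valuation_apply_eq_of_mem_decomposition A hq hA hσ c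
    have h4 := GalVal_valuation_const_zpow V hc h3
    rwa [zpow_one] at h4
  rw [map_mul, map_mul, hσc, hvc] at hv2
  rw [map_mul] at hv1
  have hvc0 : V.W.valuation (algebraMap Qb (FK N) c) ≠ 0 := (Valuation.ne_zero_iff _).mpr hcF
  exact mul_left_cancel₀ hvc0 (hv2.trans hv1.symm)

variable {ζ}

/-- `I′` is normalised by `I_A`. -/
theorem conj_mem_tameGroup {p : ℕ} (hζ : IsPrimitiveRoot ζ p) (hp : 0 < p) {τ ρ : GQ}
    (hτ : τ ∈ A.inertiaSubgroupIn ℚ) (hρ : IsTameFix A ζ ρ) : IsTameFix A ζ (τ⁻¹ * ρ * τ) := by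
  refine ⟨(A.inertiaSubgroupIn ℚ).mul_mem ((A.inertiaSubgroupIn ℚ).mul_mem
    ((A.inertiaSubgroupIn ℚ).inv_mem hτ) hρ.1) hτ, ?_⟩
  have : NeZero p := ⟨hp.ne'⟩
  have h1 : (τ ζ) ^ p = 1 := by rw [← map_pow, hζ.pow_eq_one, map_one]
  obtain ⟨i, -, hi⟩ := hζ.eq_pow_of_pow_eq_one h1
  show τ⁻¹ (ρ (τ ζ)) = ζ
  rw [← hi, map_pow, hρ.2, hi]
  exact τ.symm_apply_apply ζ

variable (N)

/-- **`τ ∈ I_A` maps `F_{K′}` to itself.** -/
theorem arith_mem_fixedFK {p : ℕ} (hζ : IsPrimitiveRoot ζ p) (hp : 0 < p) {τ : GQ}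
    (hτ : τ ∈ A.inertiaSubgroupIn ℚ) {u : FK N}
    (hu : ∀ ρ : GQ, IsTameFix A ζ ρ → arithmeticRingAut (modularFunctionFieldFull N) ρ u = u)
    (ρ : GQ) (hρ : IsTameFix A ζ ρ) :
    arithmeticRingAut (modularFunctionFieldFull N) ρ
        (arithmeticRingAut (modularFunctionFieldFull N) τ u)
      = arithmeticRingAut (modularFunctionFieldFull N) τ u := by
  have h1 := hu _ (conj_mem_tameGroup hζ hp hτ hρ)
  have h2 : arithmeticRingAut (modularFunctionFieldFull N) (τ⁻¹ * ρ * τ) u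
      = arithmeticRingAut (modularFunctionFieldFull N) τ⁻¹
          (arithmeticRingAut (modularFunctionFieldFull N) ρ
            (arithmeticRingAut (modularFunctionFieldFull N) τ u)) := by
    rw [Fermat.Agent.GJ.Kum.KumType.arithmeticRingAut_mul_apply,
      Fermat.Agent.GJ.Kum.KumType.arithmeticRingAut_mul_apply]
  rw [h2] at h1
  have h3 := congrArg (arithmeticRingAut (modularFunctionFieldFull N) τ) h1
  rw [← Fermat.Agent.GJ.Kum.KumType.arithmeticRingAut_mul_apply, mul_inv_cancel,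
    Fermat.Agent.GJ.Kum.KumType.arithmeticRingAut_one_apply] at h3
  exact h3

/-- **the tame automorphism `τ ∈ I_A` on `F_{K′}`.** -/
def tauFix {p : ℕ} (hζ : IsPrimitiveRoot ζ p) (hp : 0 < p) {τ : GQ}
    (hτ : τ ∈ A.inertiaSubgroupIn ℚ) :
    letI := tameActionFK N A ζ
    FixedPoints.subfield (tameGroup A ζ) (FK N) ≃+* FixedPoints.subfield (tameGroup A ζ) (FK N) :=
  letI := tameActionFK N A ζ
  { toFun := fun u => ⟨arithmeticRingAut (modularFunctionFieldFull N) τ u.1,
      (mem_fixedFK_iff N A ζ).2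
        (arith_mem_fixedFK N hζ hp hτ ((mem_fixedFK_iff N A ζ).1 u.2))⟩
    invFun := fun u => ⟨arithmeticRingAut (modularFunctionFieldFull N) τ⁻¹ u.1,
      (mem_fixedFK_iff N A ζ).2
        (arith_mem_fixedFK N hζ hp ((A.inertiaSubgroupIn ℚ).inv_mem hτ)
          ((mem_fixedFK_iff N A ζ).1 u.2))⟩
    left_inv := fun u => Subtype.ext (by
      show arithmeticRingAut (modularFunctionFieldFull N) τ⁻¹
        (arithmeticRingAut (modularFunctionFieldFull N) τ u.1) = u.1
      rw [← Fermat.Agent.GJ.Kum.KumType.arithmeticRingAut_mul_apply, inv_mul_cancel,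
        Fermat.Agent.GJ.Kum.KumType.arithmeticRingAut_one_apply])
    right_inv := fun u => Subtype.ext (by
      show arithmeticRingAut (modularFunctionFieldFull N) τ
        (arithmeticRingAut (modularFunctionFieldFull N) τ⁻¹ u.1) = u.1
      rw [← Fermat.Agent.GJ.Kum.KumType.arithmeticRingAut_mul_apply, mul_inv_cancel,
        Fermat.Agent.GJ.Kum.KumType.arithmeticRingAut_one_apply])
    map_mul' := fun u v => Subtype.ext (map_mul _ _ _)
    map_add' := fun u v => Subtype.ext (map_add _ _ _) }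

theorem coe_tauFix {p : ℕ} (hζ : IsPrimitiveRoot ζ p) (hp : 0 < p) {τ : GQ}
    (hτ : τ ∈ A.inertiaSubgroupIn ℚ)
    (u : letI := tameActionFK N A ζ; FixedPoints.subfield (tameGroup A ζ) (FK N)) :
    letI := tameActionFK N A ζ
    ((tauFix N hζ hp hτ u : FixedPoints.subfield (tameGroup A ζ) (FK N)) : FK N)
      = arithmeticRingAut (modularFunctionFieldFull N) τ (u : FK N) := rfl

theorem coe_tauFix_pow {p : ℕ} (hζ : IsPrimitiveRoot ζ p) (hp : 0 < p) {τ : GQ}
    (hτ : τ ∈ A.inertiaSubgroupIn ℚ) (d : ℕ)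
    (u : letI := tameActionFK N A ζ; FixedPoints.subfield (tameGroup A ζ) (FK N)) :
    letI := tameActionFK N A ζ
    ((((tauFix N hζ hp hτ) ^ d) u : FixedPoints.subfield (tameGroup A ζ) (FK N)) : FK N)
      = arithmeticRingAut (modularFunctionFieldFull N) (τ ^ d) (u : FK N) := by
  letI := tameActionFK N A ζ
  induction d generalizing u with
  | zero =>
    rw [pow_zero, pow_zero, Fermat.Agent.GJ.Kum.KumType.arithmeticRingAut_one_apply]
    rfl
  | succ d ih =>
    rw [pow_succ, pow_succ, RingAut.mul_apply, ih, coe_tauFix,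
      Fermat.Agent.GJ.Kum.KumType.arithmeticRingAut_mul_apply]

/-- **`τ ^ d ∈ I′ ⟹ (tauFix τ) ^ d = 1`.** -/
theorem tauFix_pow_eq_one {p : ℕ} (hζ : IsPrimitiveRoot ζ p) (hp : 0 < p) {τ : GQ}
    (hτ : τ ∈ A.inertiaSubgroupIn ℚ) {d : ℕ} (hd : IsTameFix A ζ (τ ^ d)) :
    (tauFix N hζ hp hτ) ^ d = 1 := by
  letI := tameActionFK N A ζ
  refine RingEquiv.ext fun u => Subtype.ext ?_
  rw [coe_tauFix_pow]
  exact (mem_fixedFK_iff N A ζ).1 u.2 _ hd

variable {N}

/-- `τ ^ (p − 1) ∈ I′` for `τ ∈ I_A` (`p` prime). -/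
theorem pow_pred_mem_tameGroup {p : ℕ} [Fact p.Prime] (hζ : IsPrimitiveRoot ζ p) {τ : GQ}
    (hτ : τ ∈ A.inertiaSubgroupIn ℚ) : IsTameFix A ζ (τ ^ (p - 1)) := by
  have hp := (Fact.out : p.Prime)
  have : NeZero p := ⟨hp.ne_zero⟩
  refine ⟨(A.inertiaSubgroupIn ℚ).pow_mem hτ _, ?_⟩
  have h1 : (τ ζ) ^ p = 1 := by rw [← map_pow, hζ.pow_eq_one, map_one]
  obtain ⟨i, -, hi⟩ := hζ.eq_pow_of_pow_eq_one h1
  -- `τ^n ζ = ζ^(i^n)`
  have hpow : ∀ n : ℕ, (τ ^ n) ζ = ζ ^ (i ^ n) := by
    intro n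
    induction n with
    | zero => simp
    | succ n ih =>
      rw [pow_succ', AlgEquiv.mul_apply, ih, map_pow, ← hi, ← pow_mul, pow_succ']
  rw [hpow]
  -- `i` is prime to `p`
  have hi0 : ¬ p ∣ i := by
    intro hdvd
    have h2 : ζ ^ i = 1 := (hζ.pow_eq_one_iff_dvd i).2 hdvd
    rw [h2] at hi
    have h3 : ζ = 1 := by
      have := congrArg τ.symm hi
      rw [map_one, τ.symm_apply_apply] at this
      exact this.symm
    exact hζ.ne_one hp.one_lt h3
  have h4 : i ^ (p - 1) ≡ 1 [MOD p] := by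
    have hcop : Nat.Coprime i p := (Nat.Coprime.symm ((Nat.Prime.coprime_iff_not_dvd hp).2 hi0))
    have := Nat.ModEq.pow_totient hcop
    rwa [Nat.totient_prime hp] at this
  have h5 : i ^ (p - 1) % p = 1 := by
    have := h4
    unfold Nat.ModEq at this
    rwa [Nat.mod_eq_of_lt hp.one_lt] at this
  have h6 : i ^ (p - 1) = p * (i ^ (p - 1) / p) + 1 := by
    have := Nat.div_add_mod (i ^ (p - 1)) p
    rw [h5] at this
    exact this.symm
  rw [h6, pow_add, pow_mul, hζ.pow_eq_one, one_pow, one_mul, pow_one]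

variable (N)

/-- `tauFix τ` preserves every `G_ℚ`-compatible valuation. -/
theorem valuation_tauFix (V : GalVal N A) {q : ℕ} (hq : q.Prime) (hA : A.LiesOverPrime q)
    {p : ℕ} (hζ : IsPrimitiveRoot ζ p) (hp : 0 < p) {τ : GQ} (hτ : τ ∈ A.inertiaSubgroupIn ℚ)
    (u : letI := tameActionFK N A ζ; FixedPoints.subfield (tameGroup A ζ) (FK N)) :
    letI := tameActionFK N A ζ
    V.W.valuation ((tauFix N hζ hp hτ u : FixedPoints.subfield (tameGroup A ζ) (FK N)) : FK N)
      = V.W.valuation (u : FK N) := by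
  rw [coe_tauFix]
  exact valuation_arith_eq V hq hA
    (Fermat.Agent.S05.mem_decompositionSubgroup_of_mem_inertiaSubgroupIn hτ) _

end Fermat.Agent.GF.KCover.Int

end
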