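/-
GATE-F / GF-KCOVER-INST-FIELD-MOD, modular facts (M3 rest)+(M4)+(M5)+(M6)+(M7) of helper3 6464
(helper56, second seat of helper3): **the two Gauss valuations restricted to `F_{K′}`.**

`A ∣ p`, `ζ` a primitive `p`-th root of unity, `I′ = tameGroup A ζ`, `F_{K′} = FixK N A ζ`
(`= FixedPoints.subfield I′ F_N` for the action `tameActionFK`), `V : GalVal N A`,
`valFix V = V.W.valuation ∘ (F_{K′} ↪ F_N)`.

* `constFix c hc : F_{K′}` (an `I′`-fixed constant), `zetaFix`, `unifFix = 1 − ζ`;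
* (M3) `exists_tame_generator` : `τ ∈ I_A`, `τ ζ = ζ ^ ω`, every `σ ∈ I_A` is `τ ^ m · I′`;
  `tauFix_zetaFix`, `fixed_of_tauFix_fixed` (`τ` GENERATES `Δ = I_A / I′` on `F_{K′}`);
* (M4) `exists_tauFix_fixed_approx` : `valFix V b ≤ 1 ⟹ ∃ a, τ a = a ∧ valFix V (b − a) < 1`;
* (M5) `isDisc_valFix₁`, `isDisc_valFix₂` : helper3's `Disc.IsDisc (valFix V_i) (1 − ζ)`;
* (M6) `valFix_natCast_lt_one`, `natCast_ne_zero_FixK`, `valFix_natCast_pred`;
* (M7) `valFix_const_eq_zpow_iff`, `valuation_eq_zpow_ordD` (= helper31's `hvK` for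
  `vK := ordD h_i` on the `K′`-rational constants).
-/
import Fermat.Agent.GF.KCover.Int.FixedField
import Fermat.Agent.GF.KCover.Field.Inertia
import Fermat.Agent.GF.KCover.Field.Disc
import Fermat.Agent.GL.Local.TameZeta

set_option autoImplicit false
set_option linter.unusedSectionVars false
set_option linter.style.haveILetI false

noncomputable section

namespace Fermat.Agent.GF.KCover.Int

open ModularCurve
open Fermat.Agent.GK.SS Fermat.Agent.GK.AL Fermat.Agent.GJ.KumGroup Fermat.Agent.GF.Peu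
open Fermat.Agent.GF.F2Asm.Inst
open Fermat.Agent.GF.KCover.Field

local notation "Qb" => AlgebraicClosure ℚ
local notation "GQ" => (AlgebraicClosure ℚ ≃ₐ[ℚ] AlgebraicClosure ℚ)

variable (N : ℕ) [NeZero N] (A : ValuationSubring Qb) (ζ : Qb)

/-- **`F_{K′}`**, the field of `K′`-rational functions. -/
abbrev FixK : Subfield (FK N) :=
  letI := tameActionFK N A ζ
  FixedPoints.subfield (tameGroup A ζ) (FK N)

theorem mem_FixK_iff {u : FK N} :
    u ∈ FixK N A ζ ↔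
      ∀ ρ : GQ, IsTameFix A ζ ρ → arithmeticRingAut (modularFunctionFieldFull N) ρ u = u :=
  mem_fixedFK_iff N A ζ

/-- an `I′`-fixed constant is in `F_{K′}`. -/
theorem algebraMap_mem_FixK {c : Qb} (hc : ∀ ρ : GQ, IsTameFix A ζ ρ → ρ c = c) :
    algebraMap Qb (FK N) c ∈ FixK N A ζ := by
  rw [mem_FixK_iff]
  intro ρ hρ
  rw [arithmeticRingAut_algebraMap, hc ρ hρ]

/-- an `I′`-fixed constant as an element of `F_{K′}`. -/
def constFix (c : Qb) (hc : ∀ ρ : GQ, IsTameFix A ζ ρ → ρ c = c) : FixK N A ζ :=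
  ⟨algebraMap Qb (FK N) c, algebraMap_mem_FixK N A ζ hc⟩

theorem coe_constFix (c : Qb) (hc : ∀ ρ : GQ, IsTameFix A ζ ρ → ρ c = c) :
    ((constFix N A ζ c hc : FixK N A ζ) : FK N) = algebraMap Qb (FK N) c := rfl

/-- `ζ ∈ F_{K′}`. -/
def zetaFix : FixK N A ζ := constFix N A ζ ζ (fun _ hρ => hρ.2)

/-- `1 − ζ ∈ F_{K′}`, the uniformiser. -/
def unifFix : FixK N A ζ :=
  constFix N A ζ (1 - ζ) (fun ρ hρ => by rw [map_sub, map_one, hρ.2])

theorem coe_zetaFix : ((zetaFix N A ζ : FixK N A ζ) : FK N) = algebraMap Qb (FK N) ζ := rfl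

theorem coe_unifFix :
    ((unifFix N A ζ : FixK N A ζ) : FK N) = algebraMap Qb (FK N) (1 - ζ) := rfl

theorem unifFix_eq : unifFix N A ζ = 1 - zetaFix N A ζ := by
  apply Subtype.ext
  rw [coe_unifFix, map_sub, map_one]
  rfl

variable {ζ} in
theorem isPrimitiveRoot_zetaFix {p : ℕ} (hζ : IsPrimitiveRoot ζ p) :
    IsPrimitiveRoot (zetaFix N A ζ) p := by
  have h1 : IsPrimitiveRoot (algebraMap Qb (FK N) ζ) p :=
    hζ.map_of_injective (algebraMap Qb (FK N)).injective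
  exact IsPrimitiveRoot.of_map_of_injective (f := (FixK N A ζ).subtype) h1
    (FixK N A ζ).subtype_injective

variable {N A}

/-- **the restriction of a `G_ℚ`-compatible valuation to `F_{K′}`.** -/
def valFix (V : GalVal N A) : Valuation (FixK N A ζ) V.W.ValueGroup :=
  V.W.valuation.comap (FixK N A ζ).subtype

theorem valFix_apply (V : GalVal N A) (a : FixK N A ζ) :
    valFix ζ V a = V.W.valuation (a : FK N) := rfl

/-! ### (M6) the residue characteristic -/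

section M6

variable (V : GalVal N A) {p : ℕ} [Fact p.Prime] (hA : (p : Qb) ∈ A.nonunits)

include hA in
theorem valuation_natCast_lt_one : V.W.valuation ((p : ℕ) : FK N) < 1 := by
  rw [← map_natCast (algebraMap Qb (FK N))]
  exact V.val_const_lt_one ((A.mem_nonunits_iff).mp hA)

include hA in
theorem valuation_natCast_pred : V.W.valuation (((p - 1 : ℕ) : ℕ) : FK N) = 1 := by
  have hp := (Fact.out : p.Prime)
  rw [← map_natCast (algebraMap Qb (FK N))]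
  apply V.val_const_eq_one
  have h1 : (((p - 1 : ℕ) : ℕ) : Qb) = (p : Qb) - 1 := by
    rw [Nat.cast_sub hp.one_lt.le, Nat.cast_one]
  rw [h1]
  have h2 : A.valuation (p : Qb) < A.valuation (1 : Qb) := by
    rw [map_one]
    exact (A.mem_nonunits_iff).mp hA
  rw [Valuation.map_sub_eq_of_lt_right _ h2, map_one]

include hA in
/-- (M6a) `v_i (p) < 1` on `F_{K′}`. -/
theorem valFix_natCast_lt_one : valFix ζ V ((p : ℕ) : FixK N A ζ) < 1 := by
  rw [valFix_apply]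
  have : (((p : ℕ) : FixK N A ζ) : FK N) = ((p : ℕ) : FK N) := by
    exact map_natCast (FixK N A ζ).subtype p
  rw [this]
  exact valuation_natCast_lt_one V hA

/-- (M6b) `p ≠ 0` in `F_{K′}`. -/
theorem natCast_ne_zero_FixK (N : ℕ) [NeZero N] (A : ValuationSubring Qb) (ζ : Qb)
    {n : ℕ} (hn : n ≠ 0) : ((n : ℕ) : FixK N A ζ) ≠ 0 := by
  intro h0
  have h1 : (((n : ℕ) : FixK N A ζ) : FK N) = ((n : ℕ) : FK N) :=
    map_natCast (FixK N A ζ).subtype n
  rw [h0] at h1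
  have h2 : ((n : ℕ) : FK N) = algebraMap Qb (FK N) ((n : ℕ) : Qb) :=
    (map_natCast (algebraMap Qb (FK N)) n).symm
  rw [h2] at h1
  have h3 : algebraMap Qb (FK N) ((n : ℕ) : Qb) = 0 := h1.symm
  rw [map_eq_zero_iff _ (algebraMap Qb (FK N)).injective] at h3
  exact hn (Nat.cast_eq_zero.mp h3)

include hA in
/-- (M6c) `v_i (p − 1) = 1` on `F_{K′}`. -/
theorem valFix_natCast_pred : valFix ζ V (((p - 1 : ℕ) : ℕ) : FixK N A ζ) = 1 := by
  rw [valFix_apply]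
  have : ((((p - 1 : ℕ) : ℕ) : FixK N A ζ) : FK N) = (((p - 1 : ℕ) : ℕ) : FK N) :=
    map_natCast (FixK N A ζ).subtype (p - 1)
  rw [this]
  exact valuation_natCast_pred V hA

end M6

/-! ### (M3) a generator of the tame quotient -/

section M3

variable {ζ}

/-- `τ ζ = ζ ^ ω ⟹ τ ^ n ζ = ζ ^ (ω ^ n)`. -/
theorem pow_apply_zeta {τ : GQ} {ω : ℕ} (hτζ : τ ζ = ζ ^ ω) (n : ℕ) :
    (τ ^ n) ζ = ζ ^ (ω ^ n) := by
  induction n with
  | zero => simp
  | succ n ih =>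
    rw [pow_succ', AlgEquiv.mul_apply, ih, map_pow, hτζ, ← pow_mul, pow_succ']

/-- **a generator of `I_A / I′ ≅ (ℤ/p)ˣ`**: `τ ∈ I_A` with `τ ζ = ζ ^ ω`, and every `σ ∈ I_A` is
in `τ ^ m · I′` for some `m`. -/
theorem exists_tame_generator {p : ℕ} [Fact p.Prime] (hA : (p : Qb) ∈ A.nonunits)
    (hζ : IsPrimitiveRoot ζ p) :
    ∃ τ ∈ A.inertiaSubgroupIn ℚ, ∃ ω : ℕ, τ ζ = ζ ^ ω ∧
      ∀ σ ∈ A.inertiaSubgroupIn ℚ, ∃ m : ℕ, IsTameFix A ζ ((τ ^ m)⁻¹ * σ) := by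
  have hp := (Fact.out : p.Prime)
  have : NeZero p := ⟨hp.ne_zero⟩
  obtain ⟨g, hg⟩ := IsCyclic.exists_generator (α := (ZMod p)ˣ)
  set ω : ℕ := ((g : ZMod p)).val with hω
  have hωg : ((ω : ℕ) : ZMod p) = (g : ZMod p) := ZMod.natCast_zmod_val _
  have hω0 : ¬ p ∣ ω := by
    intro hdvd
    have h0 : ((ω : ℕ) : ZMod p) = 0 := (ZMod.natCast_eq_zero_iff ω p).2 hdvd
    rw [hωg] at h0
    exact g.ne_zero h0
  obtain ⟨τ, hτ, hτζ⟩ :=
    Fermat.Agent.GL.Local.InertiaField.exists_mem_inertia_apply_zeta A hp hA hζ hω0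
  refine ⟨τ, hτ, ω, hτζ, ?_⟩
  intro σ hσ
  have h1 : (σ ζ) ^ p = 1 := by rw [← map_pow, hζ.pow_eq_one, map_one]
  obtain ⟨j, -, hj⟩ := hζ.eq_pow_of_pow_eq_one h1
  have hj0 : ¬ p ∣ j := by
    intro hdvd
    have h2 : ζ ^ j = 1 := (hζ.pow_eq_one_iff_dvd j).2 hdvd
    rw [h2] at hj
    have h3 : ζ = 1 := by
      have := congrArg σ.symm hj
      rw [map_one, σ.symm_apply_apply] at this
      exact this.symm
    exact hζ.ne_one hp.one_lt h3
  have hjunit : IsUnit ((j : ℕ) : ZMod p) := by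
    rw [isUnit_iff_ne_zero]
    intro h0
    exact hj0 ((ZMod.natCast_eq_zero_iff j p).1 h0)
  obtain ⟨u, hu⟩ := hjunit
  have hmem : u ∈ Submonoid.powers g := (mem_powers_iff_mem_zpowers).2 (hg u)
  obtain ⟨m, hm⟩ := (Submonoid.mem_powers_iff u g).1 hmem
  refine ⟨m, ?_⟩
  have hcast : ((ω ^ m : ℕ) : ZMod p) = ((j : ℕ) : ZMod p) := by
    rw [Nat.cast_pow, hωg, ← hu, ← hm, Units.val_pow_eq_pow_val]
  have hmod : ω ^ m ≡ j [MOD p] := (ZMod.natCast_eq_natCast_iff _ _ _).1 hcast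
  have hpow : ζ ^ (ω ^ m) = ζ ^ j := by
    rw [pow_eq_pow_mod (ω ^ m) hζ.pow_eq_one, pow_eq_pow_mod j hζ.pow_eq_one]
    exact congrArg (ζ ^ ·) hmod
  refine ⟨(A.inertiaSubgroupIn ℚ).mul_mem
    ((A.inertiaSubgroupIn ℚ).inv_mem ((A.inertiaSubgroupIn ℚ).pow_mem hτ m)) hσ, ?_⟩
  show (τ ^ m)⁻¹ (σ ζ) = ζ
  rw [← hj, ← hpow, ← pow_apply_zeta hτζ m]
  exact (τ ^ m).symm_apply_apply ζ

variable (N)

/-- `τ ζ = ζ ^ ω` on `F_{K′}`. -/
theorem tauFix_zetaFix {p : ℕ} (hζ : IsPrimitiveRoot ζ p) (hp : 0 < p) {τ : GQ}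
    (hτ : τ ∈ A.inertiaSubgroupIn ℚ) {ω : ℕ} (hτζ : τ ζ = ζ ^ ω) :
    tauFix N hζ hp hτ (zetaFix N A ζ) = zetaFix N A ζ ^ ω := by
  apply Subtype.ext
  rw [coe_tauFix, coe_zetaFix, arithmeticRingAut_algebraMap, hτζ, map_pow]
  rfl

/-- **`τ` generates `Δ`**: a `τ`-fixed element of `F_{K′}` is fixed by all of `I_A`. -/
theorem fixed_of_tauFix_fixed {p : ℕ} (hζ : IsPrimitiveRoot ζ p) (hp : 0 < p) {τ : GQ}
    (hτ : τ ∈ A.inertiaSubgroupIn ℚ)
    (hgen : ∀ σ ∈ A.inertiaSubgroupIn ℚ, ∃ m : ℕ, IsTameFix A ζ ((τ ^ m)⁻¹ * σ))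
    (a : FixK N A ζ) (ha : tauFix N hζ hp hτ a = a) :
    ∀ σ ∈ A.inertiaSubgroupIn ℚ,
      arithmeticRingAut (modularFunctionFieldFull N) σ (a : FK N) = (a : FK N) := by
  intro σ hσ
  obtain ⟨m, hm⟩ := hgen σ hσ
  have h1 : σ = τ ^ m * ((τ ^ m)⁻¹ * σ) := by
    rw [← mul_assoc, mul_inv_cancel, one_mul]
  have h2 : arithmeticRingAut (modularFunctionFieldFull N) ((τ ^ m)⁻¹ * σ) (a : FK N)
      = (a : FK N) := (mem_FixK_iff N A ζ).1 a.2 _ hm
  have h3 : ∀ n : ℕ, ((tauFix N hζ hp hτ) ^ n) a = a := by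
    intro n
    induction n with
    | zero => rfl
    | succ n ih =>
      rw [pow_succ, RingAut.mul_apply, ha, ih]
  rw [h1, Fermat.Agent.GJ.Kum.KumType.arithmeticRingAut_mul_apply, h2,
    ← coe_tauFix_pow N hζ hp hτ m a, h3]

end M3

/-! ### (M4) `f = 1` for `F_{K′} / F_{K₀}` -/

section M4

variable {ζ} (N)

/-- **(M4)** every `V`-integral element of `F_{K′}` is congruent to a `τ`-fixed one modulo the
maximal ideal (`a` = the trace average `Inertia.avgTame (tauFix τ) (p − 1) b`). -/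
theorem exists_tauFix_fixed_approx (V : GalVal N A) {p : ℕ} [Fact p.Prime]
    (hA : (p : Qb) ∈ A.nonunits) (hζ : IsPrimitiveRoot ζ p) (hp : 0 < p) {τ : GQ}
    (hτ : τ ∈ A.inertiaSubgroupIn ℚ) (b : FixK N A ζ) (hb : valFix ζ V b ≤ 1) :
    ∃ a : FixK N A ζ, tauFix N hζ hp hτ a = a ∧ valFix ζ V (b - a) < 1 := by
  set x := tauFix N hζ hp hτ with hx
  set d : ℕ := p - 1 with hd
  have hxd : x ^ d = 1 := tauFix_pow_eq_one N hζ hp hτ (pow_pred_mem_tameGroup hζ hτ)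
  refine ⟨Inertia.avgTame x d b, mem_fixedTame.1 (Inertia.avgTame_mem_fixedTame hxd b), ?_⟩
  have hd0 : ((d : ℕ) : FixK N A ζ) ≠ 0 := by
    apply natCast_ne_zero_FixK
    have := (Fact.out : p.Prime).one_lt
    omega
  have hvd : valFix ζ V ((d : ℕ) : FixK N A ζ) = 1 := valFix_natCast_pred ζ V hA
  have hsplit : b - Inertia.avgTame x d b
      = ((d : ℕ) : FixK N A ζ)⁻¹ * ∑ i ∈ Finset.range d, (b - (x ^ i) b) := by
    rw [Inertia.avgTame, Finset.sum_sub_distrib, Finset.sum_const, Finset.card_range,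
      nsmul_eq_mul, mul_sub, ← mul_assoc, inv_mul_cancel₀ hd0, one_mul]
  rw [hsplit, map_mul, map_inv₀, hvd, inv_one, one_mul]
  refine Valuation.map_sum_lt _ one_ne_zero fun i _ => ?_
  rw [valFix_apply]
  have h1 : (((b - (x ^ i) b : FixK N A ζ)) : FK N)
      = (b : FK N) - arithmeticRingAut (modularFunctionFieldFull N) (τ ^ i) (b : FK N) := by
    rw [← coe_tauFix_pow N hζ hp hτ i b]
    rfl
  rw [h1, Valuation.map_sub_swap]
  exact V.inert (τ ^ i) ((A.inertiaSubgroupIn ℚ).pow_mem hτ i) _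
    ((V.W.valuation_le_one_iff _).1 hb)

end M4

/-! ### (M5) discreteness -/

section M5

variable {ζ} (N)

/-- `v (1 − ζ) < 1`. -/
theorem valFix_unifFix_lt_one (V : GalVal N A) {p : ℕ} [Fact p.Prime]
    (hA : (p : Qb) ∈ A.nonunits) (hζ : IsPrimitiveRoot ζ p) :
    valFix ζ V (unifFix N A ζ) < 1 := by
  rw [valFix_apply, coe_unifFix]
  exact V.val_const_lt_one ((A.mem_nonunits_iff).mp
    (Fermat.Agent.GL.Local.InertiaField.one_sub_zeta_mem_nonunits A Fact.out hA hζ))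

theorem unifFix_ne_zero {p : ℕ} [Fact p.Prime] (hζ : IsPrimitiveRoot ζ p) :
    unifFix N A ζ ≠ 0 := by
  intro h0
  have h1 : algebraMap Qb (FK N) (1 - ζ) = 0 := by
    rw [← coe_unifFix, h0]
    rfl
  rw [map_eq_zero_iff _ (algebraMap Qb (FK N)).injective] at h1
  exact Fermat.Agent.GL.Local.InertiaField.one_sub_zeta_ne_zero Fact.out hζ h1

/-- **(M5), generic form**: helper3's `Disc.IsDisc` for the restriction of `V` to `F_{K′}`, from the
integrality statement of `Int/Modular.lean`. -/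
theorem isDisc_valFix (V : GalVal N A) {p : ℕ} [Fact p.Prime]
    (hA : (p : Qb) ∈ A.nonunits) (hζ : IsPrimitiveRoot ζ p)
    (hex : ∀ u : FK N, u ≠ 0 →
      (∀ ρ : GQ, IsTameFix A ζ ρ → arithmeticRingAut (modularFunctionFieldFull N) ρ u = u) →
      ∃ n : ℤ, V.W.valuation u = V.W.valuation (algebraMap Qb (FK N) (1 - ζ)) ^ n) :
    Disc.IsDisc (valFix ζ V) (unifFix N A ζ) where
  lt_one := valFix_unifFix_lt_one N V hA hζ
  ne_zero := unifFix_ne_zero N hζ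
  exists_zpow := by
    intro a ha
    have ha' : (a : FK N) ≠ 0 := fun h => ha (Subtype.ext h)
    exact hex (a : FK N) ha' ((mem_FixK_iff N A ζ).1 a.2)

variable (A)

/-- **(M5) for `w₁`.** -/
theorem isDisc_valFix₁ {p : ℕ} [Fact p.Prime]
    (hA : (p : Qb) ∈ A.nonunits) (hζ : IsPrimitiveRoot ζ p) :
    Disc.IsDisc (valFix ζ (galVal1 N A)) (unifFix N A ζ) :=
  isDisc_valFix N (galVal1 N A) hA hζ (fun u hu hfix =>
    exists_zpow_valuation_of_fixed₁ N A hA hζ u hu hfix)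

/-- **(M5) for `w₂ = w₁ ∘ W_q`.** -/
theorem isDisc_valFix₂ {q : ℕ} (h : ExactDvd q N) {p : ℕ} [Fact p.Prime]
    (hA : (p : Qb) ∈ A.nonunits) (hζ : IsPrimitiveRoot ζ p) :
    Disc.IsDisc (valFix ζ (galVal2 N A h)) (unifFix N A ζ) :=
  isDisc_valFix N (galVal2 N A h) hA hζ (fun u hu hfix =>
    exists_zpow_valuation_of_fixed₂ N A h hA hζ u hu hfix)

end M5

/-! ### (M7) the constants -/

section M7

variable {ζ}

/-- a constant is a `W`-unit iff it is an `A`-unit. -/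
theorem GalVal_val_const_eq_one_iff (V : GalVal N A) {a : Qb} :
    V.W.valuation (algebraMap Qb (FK N) a) = 1 ↔ A.valuation a = 1 := by
  refine ⟨fun h => ?_, V.val_const_eq_one⟩
  obtain ⟨h0, h1, h2⟩ := (vs_val_eq_one_iff V.W).1 h
  have ha0 : a ≠ 0 := by
    rintro rfl
    exact h0 (map_zero _)
  refine (vs_val_eq_one_iff A).2 ⟨ha0, (V.mem_const a).1 h1, ?_⟩
  rw [← map_inv₀] at h2
  exact (V.mem_const _).1 h2

/-- the dictionary of the constants at the level of `F_N`. -/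
theorem GalVal_const_eq_zpow_iff (V : GalVal N A) {c d : Qb} (hd : d ≠ 0) (m : ℤ) :
    V.W.valuation (algebraMap Qb (FK N) c) = V.W.valuation (algebraMap Qb (FK N) d) ^ m ↔
      A.valuation c = A.valuation d ^ m := by
  refine ⟨fun h => ?_, GalVal_valuation_const_zpow V hd⟩
  have hd' : V.W.valuation (algebraMap Qb (FK N) d) ≠ 0 :=
    (Valuation.ne_zero_iff _).mpr ((map_ne_zero_iff _ (algebraMap Qb (FK N)).injective).2 hd)
  have hvd : A.valuation d ≠ 0 := (Valuation.ne_zero_iff _).mpr hd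
  have h1 : V.W.valuation (algebraMap Qb (FK N) (c / d ^ m)) = 1 := by
    rw [map_div₀, map_zpow₀, map_div₀, map_zpow₀, h, div_self (zpow_ne_zero m hd')]
  have h2 := (GalVal_val_const_eq_one_iff V).1 h1
  rw [map_div₀, map_zpow₀] at h2
  exact (div_eq_one_iff_eq (zpow_ne_zero m hvd)).mp h2

variable (N)

/-- **(M7)** on the `K′`-rational constants the order of `valFix V` is the `(1 − ζ)`-adic
valuation of `A`. -/
theorem valFix_const_eq_zpow_iff (V : GalVal N A) {p : ℕ} [Fact p.Prime]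
    (hζ : IsPrimitiveRoot ζ p) (c₀ : Qb) (hfix : ∀ ρ : GQ, IsTameFix A ζ ρ → ρ c₀ = c₀)
    (n : ℤ) :
    valFix ζ V (constFix N A ζ c₀ hfix) = valFix ζ V (unifFix N A ζ) ^ n ↔
      A.valuation c₀ = A.valuation (1 - ζ) ^ n := by
  rw [valFix_apply, valFix_apply, coe_constFix, coe_unifFix]
  exact GalVal_const_eq_zpow_iff V
    (Fermat.Agent.GL.Local.InertiaField.one_sub_zeta_ne_zero Fact.out hζ) n

/-- **(M7), `ordD` form** = helper31's `hvK` for `vK := Disc.ordD h`. -/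
theorem valuation_eq_zpow_ordD (V : GalVal N A) {p : ℕ} [Fact p.Prime]
    (hζ : IsPrimitiveRoot ζ p) (h : Disc.IsDisc (valFix ζ V) (unifFix N A ζ))
    {c₀ : Qb} (hc₀ : c₀ ≠ 0) (hfix : ∀ ρ : GQ, IsTameFix A ζ ρ → ρ c₀ = c₀) :
    A.valuation c₀ = A.valuation (1 - ζ) ^ Disc.ordD h (constFix N A ζ c₀ hfix) := by
  rw [← valFix_const_eq_zpow_iff N V hζ c₀ hfix]
  apply Disc.v_eq h
  intro h0
  have h1 : algebraMap Qb (FK N) c₀ = 0 := by
    rw [← coe_constFix N A ζ c₀ hfix, h0]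
    rfl
  rw [map_eq_zero_iff _ (algebraMap Qb (FK N)).injective] at h1
  exact hc₀ h1

end M7

/-! ### the shape consumed by helper3's `Pack.tauC` -/

section Pres

variable {ζ} (N)

/-- `tauFix τ` preserves `valFix V` (the hypothesis `hτ` of `Pack.tauC`, `Pack.wv_tame`). -/
theorem valFix_tauFix (V : GalVal N A) {p : ℕ} [Fact p.Prime]
    (hA : (p : Qb) ∈ A.nonunits) (hζ : IsPrimitiveRoot ζ p) (hp : 0 < p) {τ : GQ}
    (hτ : τ ∈ A.inertiaSubgroupIn ℚ) (a : FixK N A ζ) :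
    valFix ζ V (tauFix N hζ hp hτ a) = valFix ζ V a :=
  valuation_tauFix N V Fact.out hA hζ hp hτ a

/-- `(tauFix τ) ^ (p − 1) = 1`. -/
theorem tauFix_pow_pred_eq_one {p : ℕ} [Fact p.Prime] (hζ : IsPrimitiveRoot ζ p) (hp : 0 < p)
    {τ : GQ} (hτ : τ ∈ A.inertiaSubgroupIn ℚ) : (tauFix N hζ hp hτ) ^ (p - 1) = 1 :=
  tauFix_pow_eq_one N hζ hp hτ (pow_pred_mem_tameGroup hζ hτ)

end Pres

end Fermat.Agent.GF.KCover.Int

end
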