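/-
GATE-F / GF-KCOVER-INST-FIELD-MOD, file 2 (helper56, second seat of helper3):
**the CONCRETE tame generator `x` of the `K′`-rational cover `E′ T = T.Fp^{I′}` over
`tauFix τ`, and the `Δ~`-invariance of helper3's `wOf`.**

Vocabulary = helper3 `Field/WDataOf` VERBATIM (`F₁ N A ζ`, `E' T`, `isAdj' T`, `g₁ T`, `ζ₁ T`,
`valF₁ T V`, `ϖ₁ T`, `wOf T hD hγ`); inputs = `Int/FixedField`, `Int/FixedVal` (helper56) and the
third clause `hσ` of helper31 `TameSigma.exists_tameDatum_sigma`.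

* `isDisc₁ T hA`, `isDisc₂ T h hA` : `IsDisc (valF₁ T (galVal_i)) (ϖ₁ T)` (no hypothesis left);
* `tauF₁ T hτ : F₁ N A ζ ≃+* F₁ N A ζ`, `tauF₁_pow`, `valF₁_tauF₁`, `tauF₁_ζ₁`;
* `SigmaRel T` : helper31's `hσ`-clause;  `exists_rel` : `τ g₁ = g₁ ^ [ω τ] · h ^ p` in `F₁`;
* `exists_tame_x` : `x : E' T ≃+* E' T` over `tauF₁`, commuting with `δ`, `x ^ (p − 1) = 1`;
* `wOf_tame` : `w_{i,k} (x y) = w_{i,k} y`;  `hF`, `hvd` : the remaining binders of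
  `Pack.norm_emb_tame_sub_lt_one`, `Pack.norm_emb_sub_avgTame_lt_one`;
* `wOf_base`, `valuation_eq_zpow_wOf` : **`hbase`** — on the `I′`-fixed functions of `F_N` the
  `w_{i,k}` are the order of the Gauss valuation in `(1 − ζ)`-units.
-/
import Fermat.Agent.GF.KCover.Int.FixedVal
import Fermat.Agent.GF.KCover.Field.WDataOf
import Fermat.Agent.GF.F2Asm.TameSigma

set_option autoImplicit false
set_option linter.unusedSectionVars false
set_option linter.style.haveILetI false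

noncomputable section

namespace Fermat.Agent.GF.KCover.Int.TameLift

open ModularCurve Polynomial
open Fermat.Agent.GK.SS Fermat.Agent.GK.AL Fermat.Agent.GJ.KumGroup Fermat.Agent.GF.Peu
open Fermat.Agent.GJ.CycChar Fermat.Agent.GF.F2Asm.OmegaProj
open Fermat.Agent.GF.F2Asm.Inst Fermat.Agent.GF.KCover
open Fermat.Agent.GF.KCover.Field Fermat.Agent.GF.KCover.Field.WDataOf
open Fermat.Agent.GF.KCover.Field.Disc Fermat.Agent.GF.KCover.Int

local notation "Qb" => AlgebraicClosure ℚ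
local notation "GQ" => (AlgebraicClosure ℚ ≃ₐ[ℚ] AlgebraicClosure ℚ)

variable {N : ℕ} [NeZero N] {p : ℕ} [hpF : Fact p.Prime] {A : ValuationSubring Qb} {ζ : Qb}

attribute [local instance] actFK algE'

variable (T : TameDatum N p A ζ)

/-! ### (1) discreteness, no hypothesis left -/

theorem intHyp₁ (hA : (p : Qb) ∈ A.nonunits) : IntHyp T (galVal1 N A) :=
  fun u hu hfix => exists_zpow_valuation_of_fixed₁ N A hA T.prim u hu hfix

theorem intHyp₂ {q : ℕ} (h : ExactDvd q N) (hA : (p : Qb) ∈ A.nonunits) :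
    IntHyp T (galVal2 N A h) :=
  fun u hu hfix => exists_zpow_valuation_of_fixed₂ N A h hA T.prim u hu hfix

theorem isDisc₁ (hA : (p : Qb) ∈ A.nonunits) : IsDisc (valF₁ T (galVal1 N A)) (ϖ₁ T) :=
  isDisc T hA (galVal1 N A) (intHyp₁ T hA)

theorem isDisc₂ {q : ℕ} (h : ExactDvd q N) (hA : (p : Qb) ∈ A.nonunits) :
    IsDisc (valF₁ T (galVal2 N A h)) (ϖ₁ T) :=
  isDisc T hA (galVal2 N A h) (intHyp₂ T h hA)

/-! ### (2) the tame automorphism of `F₁` -/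

section Tau

variable {τ : GQ} (hτ : τ ∈ A.inertiaSubgroupIn ℚ)

/-- `τ ∈ I_A` on the `K′`-rational functions (`= Int.tauFix`). -/
def tauF₁ : F₁ N A ζ ≃+* F₁ N A ζ := tauFix N T.prim hpF.out.pos hτ

theorem coe_tauF₁ (a : F₁ N A ζ) :
    ((tauF₁ T hτ a : F₁ N A ζ) : FK N)
      = arithmeticRingAut (modularFunctionFieldFull N) τ (a : FK N) := rfl

theorem tauF₁_pow : tauF₁ T hτ ^ (p - 1) = 1 :=
  tauFix_pow_pred_eq_one N T.prim hpF.out.pos hτ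

theorem tauF₁_pow_hom : ((tauF₁ T hτ : F₁ N A ζ ≃+* F₁ N A ζ) : F₁ N A ζ →+* F₁ N A ζ) ^ (p - 1)
    = 1 := by
  ext a
  have h1 : ∀ n : ℕ, ∀ b : F₁ N A ζ,
      ((((tauF₁ T hτ : F₁ N A ζ ≃+* F₁ N A ζ) : F₁ N A ζ →+* F₁ N A ζ) ^ n) b)
        = ((tauF₁ T hτ) ^ n) b := by
    intro n
    induction n with
    | zero => intro b; rfl
    | succ n ih =>
      intro b
      rw [pow_succ, pow_succ]
      show ((((tauF₁ T hτ : F₁ N A ζ ≃+* F₁ N A ζ) : F₁ N A ζ →+* F₁ N A ζ) ^ n)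
        ((tauF₁ T hτ) b)) = ((tauF₁ T hτ) ^ n) ((tauF₁ T hτ) b)
      exact ih _
  rw [h1, tauF₁_pow]
  rfl

theorem valF₁_tauF₁ (hA : (p : Qb) ∈ A.nonunits) (V : GalVal N A) (a : F₁ N A ζ) :
    valF₁ T V (tauF₁ T hτ a) = valF₁ T V a :=
  valFix_tauFix N V hA T.prim hpF.out.pos hτ a

theorem tauF₁_ζ₁ : tauF₁ T hτ (ζ₁ T) = ζ₁ T ^ rep (cyc p τ) :=
  tauFix_zetaFix N T.prim hpF.out.pos hτ (apply_eq_pow T.prim τ)

/-- **(M4)** in `valF₁` spelling: the binder `hF` of `Pack.tauC_inertial`. -/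
theorem hF (hA : (p : Qb) ∈ A.nonunits) (V : GalVal N A) :
    ∀ b : F₁ N A ζ, valF₁ T V b ≤ 1 →
      ∃ a : F₁ N A ζ, tauF₁ T hτ a = a ∧ valF₁ T V (b - a) < 1 :=
  exists_tauFix_fixed_approx N V hA T.prim hpF.out.pos hτ

/-- the binder `hvd` of `Pack.norm_emb_sub_avgTame_lt_one`. -/
theorem hvd (hA : (p : Qb) ∈ A.nonunits) (V : GalVal N A) :
    valF₁ T V (((p - 1 : ℕ) : ℕ) : F₁ N A ζ) = 1 :=
  valFix_natCast_pred ζ V hA

end Tau

/-! ### (3) the lift relation in `F₁` -/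

/-- helper31's third clause of `TameSigma.exists_tameDatum_sigma`. -/
def SigmaRel : Prop :=
  ∀ σ ∈ A.inertiaSubgroupIn ℚ, ∃ h : FK N, h ≠ 0 ∧
    (∀ τ ∈ A.inertiaSubgroupIn ℚ, cyc p τ = 1 →
      arithmeticRingAut (modularFunctionFieldFull N) τ h = h) ∧
    arithmeticRingAut (modularFunctionFieldFull N) σ T.g₀ = T.g₀ ^ rep (cyc p σ) * h ^ p

theorem g₁_ne_zero : g₁ T ≠ 0 := by
  intro h0
  exact T.g₀_ne_zero (congrArg Subtype.val h0)

variable {T} in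
/-- **`τ g₁ = g₁ ^ [ω τ] · h ^ p` with `h` a `K′`-rational function.** -/
theorem exists_rel (hσ : SigmaRel T) {τ : GQ} (hτ : τ ∈ A.inertiaSubgroupIn ℚ) :
    ∃ h : F₁ N A ζ, tauF₁ T hτ (g₁ T) = g₁ T ^ rep (cyc p τ) * h ^ p := by
  obtain ⟨h, -, hfix, hrel⟩ := hσ τ hτ
  have hmem : h ∈ F₁ N A ζ := by
    rw [mem_F₁]
    intro ρ hρ
    exact hfix ρ hρ.1 ((cyc_eq_one_iff T.prim ρ).2 hρ.2)
  refine ⟨⟨h, hmem⟩, ?_⟩
  apply Subtype.ext
  rw [coe_tauF₁, coe_g₁]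
  exact hrel

/-! ### (4) the tame generator of the cover -/

variable {T} in
/-- **the tame generator `x` of `E′ T / F₁`** over `tauF₁`, commuting with the deck
transformation, of order dividing `p − 1`. -/
theorem exists_tame_x (hσ : SigmaRel T) {τ : GQ} (hτ : τ ∈ A.inertiaSubgroupIn ℚ) :
    ∃ x : E' T ≃+* E' T,
      (∀ a, x (algebraMap (F₁ N A ζ) (E' T) a) = algebraMap (F₁ N A ζ) (E' T) (tauF₁ T hτ a)) ∧
      x ^ (p - 1) = 1 ∧
      Commute x (deckEquiv (isAdj' T) (ζ₁_prim T) hpF.out.ne_zero) ∧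
      IsOver (x : E' T →+* E' T) ((tauF₁ T hτ : F₁ N A ζ ≃+* F₁ N A ζ) : F₁ N A ζ →+* F₁ N A ζ) ∧
      Commute (x : E' T →+* E' T) (deck (isAdj' T) (ζ₁_prim T)) ∧
      (x : E' T →+* E' T) ^ (p - 1) = 1 := by
  have hp := hpF.out
  obtain ⟨h, hrel⟩ := exists_rel hσ hτ
  have hd0 : p - 1 ≠ 0 := by have := hp.one_lt; omega
  have hcop : Nat.Coprime (p - 1) p := by
    rw [Nat.coprime_comm, hp.coprime_iff_not_dvd]
    intro hdvd
    have := Nat.le_of_dvd (by omega) hdvd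
    have := hp.one_lt
    omega
  exact exists_tame (isAdj' T) (ζ₁_prim T) hp.ne_zero (g₁_ne_zero T) hd0 (tauF₁_pow_hom T hτ) hcop
    (ω := rep (cyc p τ)) (h := h) (tauF₁_ζ₁ T hτ) hrel

/-! ### (5) `Δ~`-invariance of `wOf` -/

section Inv

variable {V : GalVal N A} (hD : IsDisc (valF₁ T V) (ϖ₁ T)) {γ : Pack.Lc hD}
  (hγ : γ ^ p = Pack.jc hD (g₁ T))
  (hA : (p : Qb) ∈ A.nonunits) {τ : GQ} (hτ : τ ∈ A.inertiaSubgroupIn ℚ)
  {x : E' T ≃+* E' T}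
  (hx : IsOver (x : E' T →+* E' T)
    ((tauF₁ T hτ : F₁ N A ζ ≃+* F₁ N A ζ) : F₁ N A ζ →+* F₁ N A ζ))
  (hxδ : Commute (x : E' T →+* E' T) (deck (isAdj' T) (ζ₁_prim T)))
  (hxd : (x : E' T →+* E' T) ^ (p - 1) = 1)

include hA hx hxδ hxd in
/-- **`w_k (x y) = w_k y`** on the `K′`-rational units of the cover. -/
theorem wOf_tame (k : ZMod p) (y y' : fixedUnits (tameGroup A ζ) T.Fp)
    (hy : toE' T y' = x (toE' T y)) : wOf T hD hγ k y' = wOf T hD hγ k y := by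
  have hp := hpF.out
  have : NeZero p := ⟨hp.ne_zero⟩
  have hcop : Nat.Coprime (p - 1) p := by
    rw [Nat.coprime_comm, hp.coprime_iff_not_dvd]
    intro hdvd
    have := Nat.le_of_dvd (by have := hp.one_lt; omega) hdvd
    have := hp.one_lt
    omega
  unfold wOf
  rw [hy]
  exact Pack.wv_tame hD (isAdj' T) (ζ₁_prim T) hγ (tauF₁ T hτ) (valF₁_tauF₁ T hτ hA V) hx hxδ
    (g₁_ne_zero T) hcop hxd (tauF₁_pow T hτ) k (toE'_ne_zero T y)

end Inv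

/-! ### (6) `hbase` -/

section Base

variable {V : GalVal N A} (hD : IsDisc (valF₁ T V) (ϖ₁ T)) {γ : Pack.Lc hD}
  (hγ : γ ^ p = Pack.jc hD (g₁ T))

/-- on the image of `F₁` the `w_k` are the order of the Gauss valuation. -/
theorem wOf_base (k : ZMod p) (c : fixedUnits (tameGroup A ζ) T.Fp) (y : F₁ N A ζ)
    (hc : ((c : T.Fpˣ) : T.Fp) = algebraMap (FK N) T.Fp (y : FK N)) :
    wOf T hD hγ k c = ordD hD y := by
  have : NeZero p := ⟨hpF.out.ne_zero⟩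
  have hy0 : y ≠ 0 := by
    rintro rfl
    have h0 : ((c : T.Fpˣ) : T.Fp) = 0 := by
      rw [hc]
      exact map_zero _
    exact (c : T.Fpˣ).ne_zero h0
  have hE : toE' T c = algebraMap (F₁ N A ζ) (E' T) y := by
    apply Subtype.ext
    rw [coe_toE', coe_algebraMap_E', hc]
  unfold wOf
  rw [hE]
  exact Pack.wv_algebraMap hD (isAdj' T) (ζ₁_prim T) hγ k hy0

/-- **`hbase`**: for an `I′`-fixed `y ∈ F_N`, `V (y) = V (1 − ζ) ^ w_k (y)`. -/
theorem valuation_eq_zpow_wOf (k : ZMod p) (c : fixedUnits (tameGroup A ζ) T.Fp) (y : FK N)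
    (hfix : ∀ ρ : GQ, IsTameFix A ζ ρ →
      arithmeticRingAut (modularFunctionFieldFull N) ρ y = y)
    (hc : ((c : T.Fpˣ) : T.Fp) = algebraMap (FK N) T.Fp y) :
    V.W.valuation y
      = V.W.valuation (algebraMap Qb (FK N) (1 - ζ)) ^ wOf T hD hγ k c := by
  have hmem : y ∈ F₁ N A ζ := mem_F₁.2 hfix
  rw [wOf_base T hD hγ k c ⟨y, hmem⟩ hc]
  have hy0 : (⟨y, hmem⟩ : F₁ N A ζ) ≠ 0 := by
    intro h0
    have hy : y = 0 := congrArg Subtype.val h0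
    have h1 : ((c : T.Fpˣ) : T.Fp) = 0 := by
      rw [hc, hy]
      exact map_zero _
    exact (c : T.Fpˣ).ne_zero h1
  exact v_eq hD hy0

end Base

/-! ### (7) the package: `T.WData` with `hvK`, `hbase₁`, `hbase₂` and the `Δ~`-invariance -/

/-- a deep `K′`-rational representative of `g₀` at the Gauss valuation `V` (the output shape of
GF-ASFORM / NORMDEPTH consumed by `WDataOf.exists_root`). -/
def DeepRepAt (V : GalVal N A) : Prop :=
  ∃ d z : FK N, d ∈ F₁ N A ζ ∧ z ∈ F₁ N A ζ ∧ T.g₀ = d ^ p * z ∧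
    V.W.valuation (z - 1) ≤ V.W.valuation (algebraMap Qb (FK N) (p : Qb)) ^ 3

/-- **the valuation fields of the cover frame, with everything the consumers need**:
`hvK` (constants), `hbase₁`, `hbase₂` (the `I′`-fixed functions of `F_N`) and, for every `τ ∈ I_A`,
a tame generator `x` of `E′ T` over `τ` leaving all the `w_{i,k}` invariant. -/
theorem exists_wData_tame (hA : (p : Qb) ∈ A.nonunits) {q : ℕ} (h : ExactDvd q N)
    (hrep₁ : DeepRepAt T (galVal1 N A)) (hrep₂ : DeepRepAt T (galVal2 N A h)) :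
    ∃ Wd : T.WData,
      (∀ (c : fixedUnits (tameGroup A ζ) T.Fp) (c₀ : Qb),
        ((c : T.Fpˣ) : T.Fp) = algebraMap Qb T.Fp c₀ →
          A.valuation c₀ = A.valuation (1 - ζ) ^ Wd.vK c) ∧
      (∀ (k : ZMod p) (c : fixedUnits (tameGroup A ζ) T.Fp) (y : FK N),
        (∀ ρ : GQ, IsTameFix A ζ ρ →
          arithmeticRingAut (modularFunctionFieldFull N) ρ y = y) →
        ((c : T.Fpˣ) : T.Fp) = algebraMap (FK N) T.Fp y →
          (galVal1 N A).W.valuation y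
            = (galVal1 N A).W.valuation (algebraMap Qb (FK N) (1 - ζ)) ^ Wd.w₁ k c) ∧
      (∀ (k : ZMod p) (c : fixedUnits (tameGroup A ζ) T.Fp) (y : FK N),
        (∀ ρ : GQ, IsTameFix A ζ ρ →
          arithmeticRingAut (modularFunctionFieldFull N) ρ y = y) →
        ((c : T.Fpˣ) : T.Fp) = algebraMap (FK N) T.Fp y →
          (galVal2 N A h).W.valuation y
            = (galVal2 N A h).W.valuation (algebraMap Qb (FK N) (1 - ζ)) ^ Wd.w₂ k c) ∧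
      (SigmaRel T → ∀ τ : GQ, ∀ hτ : τ ∈ A.inertiaSubgroupIn ℚ, ∃ x : E' T ≃+* E' T,
        (∀ a, x (algebraMap (F₁ N A ζ) (E' T) a)
          = algebraMap (F₁ N A ζ) (E' T) (tauF₁ T hτ a)) ∧
        x ^ (p - 1) = 1 ∧
        Commute (x : E' T →+* E' T) (deck (isAdj' T) (ζ₁_prim T)) ∧
        ∀ (k : ZMod p) (y y' : fixedUnits (tameGroup A ζ) T.Fp), toE' T y' = x (toE' T y) →
          Wd.w₁ k y' = Wd.w₁ k y ∧ Wd.w₂ k y' = Wd.w₂ k y) := by
  obtain ⟨d₁, z₁, hd₁, hz₁, hg₁, hdeep₁⟩ := hrep₁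
  obtain ⟨d₂, z₂, hd₂, hz₂, hg₂, hdeep₂⟩ := hrep₂
  obtain ⟨γ₁, hγ₁⟩ := WDataOf.exists_root T hA (isDisc₁ T hA) hd₁ hz₁ hg₁ hdeep₁
  obtain ⟨γ₂, hγ₂⟩ := WDataOf.exists_root T hA (isDisc₂ T h hA) hd₂ hz₂ hg₂ hdeep₂
  refine ⟨wData T hA (isDisc₁ T hA) (isDisc₂ T h hA) hγ₁ hγ₂,
    WDataOf.hvK T hA (isDisc₁ T hA) (isDisc₂ T h hA) hγ₁ hγ₂, ?_, ?_, ?_⟩
  · intro k c y hfix hc
    exact valuation_eq_zpow_wOf T (isDisc₁ T hA) hγ₁ k c y hfix hc
  · intro k c y hfix hc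
    exact valuation_eq_zpow_wOf T (isDisc₂ T h hA) hγ₂ k c y hfix hc
  · intro hσ τ hτ
    obtain ⟨x, hx1, hx2, -, hx4, hx5, hx6⟩ := exists_tame_x hσ hτ
    refine ⟨x, hx1, hx2, hx5, fun k y y' hy => ⟨?_, ?_⟩⟩
    · exact wOf_tame T (isDisc₁ T hA) hγ₁ hA hτ hx4 hx5 hx6 k y y' hy
    · exact wOf_tame T (isDisc₂ T h hA) hγ₂ hA hτ hx4 hx5 hx6 k y y' hy

end Fermat.Agent.GF.KCover.Int.TameLift

end
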