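/-
GATE-F / GF-KCOVER-INST-FIELD-MOD, file 3 (helper56, second seat of helper3):
**the tame generator as a SEMILINEAR automorphism `x̃` of the whole cover `T.Fp / ℚ̄`** (over
`τ ∈ I_A`), restricting to the tame generator `x` of `E′ T` of `Int/TameLift`.

Needed because helper31's `Us` / helper57's `regDiv` are defined through the places of `T.Fp / ℚ̄`:
their stability under `x` is `UsGroup.smul_mem_regDiv (g : SemilinearAut ℚ̄ T.Fp) (g • J = J)`.

* `deck_eq_δ` : helper3's `deck (isAdj T)` is helper31's `T.δ`;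
* `exists_lift_conj` : a lift `φ` of `τ` to `T.Fp` with `ρ • φ y = φ ((τ⁻¹ ρ τ) • y)` (`ρ ∈ I′`),
  hence `φ (E′ T) ⊆ E′ T`;
* **`exists_tame_ext`** : `x̃ : SemilinearAut ℚ̄ T.Fp` with base automorphism `τ`, over
  `arithmeticRingAut τ` on `F_N`, commuting with `T.δ`, mapping `E′ T` to itself, whose restriction
  `x : E′ T ≃+* E′ T` is over `tauF₁`, commutes with the deck transformation and has
  `x ^ (p − 1) = 1`.
-/
import Fermat.Agent.GF.KCover.Int.TameLift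

set_option autoImplicit false
set_option linter.unusedSectionVars false
set_option linter.style.haveILetI false

noncomputable section

namespace Fermat.Agent.GF.KCover.Int.TameExt

open ModularCurve Polynomial AlgebraicCurve
open Fermat.Agent.GK.SS Fermat.Agent.GK.AL Fermat.Agent.GJ.KumGroup Fermat.Agent.GF.Peu
open Fermat.Agent.GJ.Kum.KumType
open Fermat.Agent.GJ.CycChar Fermat.Agent.GF.F2Asm.OmegaProj
open Fermat.Agent.GF.F2Asm.Inst Fermat.Agent.GF.KCover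
open Fermat.Agent.GF.KCover.Field Fermat.Agent.GF.KCover.Field.WDataOf
open Fermat.Agent.GF.KCover.Field.Disc Fermat.Agent.GF.KCover.Int
open Fermat.Agent.GF.KCover.Int.TameLift

local notation "Qb" => AlgebraicClosure ℚ
local notation "GQ" => (AlgebraicClosure ℚ ≃ₐ[ℚ] AlgebraicClosure ℚ)

variable {N : ℕ} [NeZero N] {p : ℕ} [hpF : Fact p.Prime] {A : ValuationSubring Qb} {ζ : Qb}

attribute [local instance] actFK algE'

variable (T : TameDatum N p A ζ)

/-! ### the deck transformation of `T.Fp / F_N` -/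

theorem ζF_prim : IsPrimitiveRoot T.ζF p :=
  T.prim.map_of_injective (algebraMap Qb (FK N)).injective

/-- helper3's deck transformation of `isAdj T` is helper31's `T.δ`. -/
theorem deck_eq_δ : deck (isAdj T) (ζF_prim T) = ((T.δ : T.Fp ≃+* T.Fp) : T.Fp →+* T.Fp) := by
  refine ringHom_ext (isAdj T) (fun a => ?_) ?_
  · rw [deck_algebraMap]
    exact (T.δ_algebraMap a).symm
  · rw [deck_root, isAdj_root]
    show _ = T.δ T.G
    rw [T.δ_G, IsScalarTower.algebraMap_apply Qb (FK N) T.Fp ζ]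
    rfl

theorem deck_pow_eq_δ (n : ℕ) (y : T.Fp) :
    (deck (isAdj T) (ζF_prim T) ^ n) y = ((T.δ : T.Fp ≃+* T.Fp) ^ n) y := by
  rw [deck_eq_δ]
  induction n generalizing y with
  | zero => rfl
  | succ n ih =>
    rw [pow_succ, pow_succ]
    show ((((T.δ : T.Fp ≃+* T.Fp) : T.Fp →+* T.Fp)) ^ n) (T.δ y) = ((T.δ : T.Fp ≃+* T.Fp) ^ n) (T.δ y)
    exact ih _

/-! ### a lift of `τ ∈ I_A` to `T.Fp`, normalising the action of `I′` -/

/-- the ring endomorphism of `F_N` induced by `τ`. -/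
def sigF (N : ℕ) [NeZero N] (τ : GQ) : FK N →+* FK N :=
  ((arithmeticRingAut (modularFunctionFieldFull N) τ : FK N ≃+* FK N) : FK N →+* FK N)

theorem sigF_apply (τ : GQ) (y : FK N) :
    sigF N τ y = arithmeticRingAut (modularFunctionFieldFull N) τ y := rfl

/-- the conjugate `τ⁻¹ ρ τ ∈ I′` of `ρ ∈ I′` by `τ ∈ I_A`. -/
def conjTame {τ : GQ} (hτ : τ ∈ A.inertiaSubgroupIn ℚ) (ρ : tameGroup A ζ) : tameGroup A ζ :=
  ⟨τ⁻¹ * ρ.1 * τ, conj_mem_tameGroup T.prim hpF.out.pos hτ ρ.2⟩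

variable {T} in
/-- **a lift of `τ` to the cover, normalising the `I′`-action.** -/
theorem exists_lift_conj (hσ : SigmaRel T) {τ : GQ} (hτ : τ ∈ A.inertiaSubgroupIn ℚ) :
    ∃ φ : T.Fp →+* T.Fp, IsOver φ (sigF N τ) ∧
      (∀ y : T.Fp, φ (T.δ y) = T.δ (φ y)) ∧
      ∀ (ρ : tameGroup A ζ) (y : T.Fp), ρ • φ y = φ (conjTame T hτ ρ • y) := by
  obtain ⟨h, -, hfix, hrel⟩ := hσ τ hτ
  have hrel' : sigF N τ T.g₀ = T.g₀ ^ rep (cyc p τ) * h ^ p := hrel
  obtain ⟨φ, hφ, hφG⟩ := exists_lift (isAdj T) hrel'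
  rw [isAdj_root] at hφG
  have hσζ : sigF N τ T.ζF = T.ζF ^ rep (cyc p τ) := by
    show arithmeticRingAut (modularFunctionFieldFull N) τ (algebraMap Qb (FK N) ζ) = _
    rw [arithmeticRingAut_algebraMap, apply_eq_pow T.prim τ, map_pow]
    rfl
  have hcomm := commute_deck (isAdj T) (ζF_prim T) hpF.out.ne_zero T.g₀_ne_zero hφ hσζ hrel'
  refine ⟨φ, hφ, ?_, ?_⟩
  · intro y
    have h1 := RingHom.congr_fun hcomm.eq y
    rw [deck_eq_δ] at h1
    exact h1
  intro ρ y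
  have key : (MulSemiringAction.toRingHom (tameGroup A ζ) T.Fp ρ).comp φ
      = φ.comp (MulSemiringAction.toRingHom (tameGroup A ζ) T.Fp (conjTame T hτ ρ)) := by
    refine ringHom_ext (isAdj T) (fun a => ?_) ?_
    · show ρ • φ (algebraMap (FK N) T.Fp a) = φ (conjTame T hτ ρ • algebraMap (FK N) T.Fp a)
      rw [hφ a, T.smul_algebraMap, T.smul_algebraMap, hφ]
      congr 1
      show arithmeticRingAut (modularFunctionFieldFull N) ρ.1
          (arithmeticRingAut (modularFunctionFieldFull N) τ a)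
        = arithmeticRingAut (modularFunctionFieldFull N) τ
          (arithmeticRingAut (modularFunctionFieldFull N) (τ⁻¹ * ρ.1 * τ) a)
      rw [← arithmeticRingAut_mul_apply, ← arithmeticRingAut_mul_apply, ← mul_assoc, ← mul_assoc,
        mul_inv_cancel, one_mul]
    · rw [isAdj_root]
      show ρ • φ T.G = φ (conjTame T hτ ρ • T.G)
      rw [T.smul_G, hφG, smul_mul', smul_pow', T.smul_G, T.smul_algebraMap]
      congr 2
      exact hfix ρ.1 ρ.2.1 ((cyc_eq_one_iff T.prim ρ.1).2 ρ.2.2)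
  exact RingHom.congr_fun key y

variable {T} in
/-- a lift normalising the `I′`-action maps the `K′`-rational functions to themselves. -/
theorem map_mem_E' {τ : GQ} (hτ : τ ∈ A.inertiaSubgroupIn ℚ) {φ : T.Fp →+* T.Fp}
    (hconj : ∀ (ρ : tameGroup A ζ) (y : T.Fp), ρ • φ y = φ (conjTame T hτ ρ • y))
    {y : T.Fp} (hy : y ∈ E' T) : φ y ∈ E' T := by
  intro ρ
  rw [hconj ρ y, hy (conjTame T hτ ρ)]

/-! ### the semilinear extension of the tame generator -/

theorem coe_deck_pow (n : ℕ) (e : E' T) :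
    (((deck (isAdj' T) (ζ₁_prim T) ^ n) e : E' T) : T.Fp)
      = ((T.δ : T.Fp ≃+* T.Fp) ^ n) (e : T.Fp) := by
  induction n generalizing e with
  | zero => rfl
  | succ n ih =>
    rw [pow_succ, pow_succ]
    show (((deck (isAdj' T) (ζ₁_prim T) ^ n) (deck (isAdj' T) (ζ₁_prim T) e) : E' T) : T.Fp)
      = ((T.δ : T.Fp ≃+* T.Fp) ^ n) (T.δ (e : T.Fp))
    rw [ih, coe_deck]

variable {T} in
/-- **the tame generator as an automorphism of the whole cover `T.Fp`**: `x̃ : T.Fp ≃+* T.Fp` over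
`arithmeticRingAut τ` on `F_N`, commuting with `T.δ`, whose restriction to the `K′`-rational
functions `E′ T` is a tame generator `x` (over `tauF₁`, commuting with the deck transformation,
`x ^ (p − 1) = 1`). -/
theorem exists_tame_ext (hσ : SigmaRel T) {τ : GQ} (hτ : τ ∈ A.inertiaSubgroupIn ℚ) :
    ∃ (xt : T.Fp ≃+* T.Fp) (x : E' T ≃+* E' T),
      (∀ a : FK N, xt (algebraMap (FK N) T.Fp a)
        = algebraMap (FK N) T.Fp (arithmeticRingAut (modularFunctionFieldFull N) τ a)) ∧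
      (∀ y : T.Fp, xt (T.δ y) = T.δ (xt y)) ∧
      (∀ e : E' T, ((x e : E' T) : T.Fp) = xt (e : T.Fp)) ∧
      (∀ a, x (algebraMap (F₁ N A ζ) (E' T) a) = algebraMap (F₁ N A ζ) (E' T) (tauF₁ T hτ a)) ∧
      x ^ (p - 1) = 1 ∧
      IsOver (x : E' T →+* E' T) ((tauF₁ T hτ : F₁ N A ζ ≃+* F₁ N A ζ) : F₁ N A ζ →+* F₁ N A ζ) ∧
      Commute (x : E' T →+* E' T) (deck (isAdj' T) (ζ₁_prim T)) ∧
      (x : E' T →+* E' T) ^ (p - 1) = 1 := by
  have hp := hpF.out
  obtain ⟨φ, hφ, hφδ, hconj⟩ := exists_lift_conj hσ hτ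
  obtain ⟨x, hx1, hx2, -, hx4, hx5, hx6⟩ := exists_tame_x hσ hτ
  -- the restriction of `φ` to `E' T`
  let φ' : E' T →+* E' T :=
    (φ.comp (E' T).subtype).codRestrict (E' T) (fun e => map_mem_E' hτ hconj e.2)
  have hφ'coe : ∀ e : E' T, ((φ' e : E' T) : T.Fp) = φ (e : T.Fp) := fun _ => rfl
  have hφ'alg : ∀ a : F₁ N A ζ, φ' (algebraMap (F₁ N A ζ) (E' T) a)
      = algebraMap (F₁ N A ζ) (E' T) (tauF₁ T hτ a) := by
    intro a
    apply Subtype.ext
    rw [hφ'coe, coe_algebraMap_E', coe_algebraMap_E', hφ (a : FK N)]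
    rfl
  -- `x⁻¹ ∘ φ'` is a power of the deck transformation
  have hψ : IsOver (((x.symm : E' T ≃+* E' T) : E' T →+* E' T).comp φ')
      (1 : F₁ N A ζ →+* F₁ N A ζ) := by
    intro a
    show x.symm (φ' (algebraMap (F₁ N A ζ) (E' T) a)) = algebraMap (F₁ N A ζ) (E' T) a
    rw [hφ'alg, ← hx1 a, x.symm_apply_apply]
  obtain ⟨c, hc, hψc⟩ :=
    exists_eq_deck_pow (isAdj' T) (ζ₁_prim T) hp.ne_zero (g₁_ne_zero T) hψ
  have hφ'x : ∀ e : E' T, φ' e = x ((deck (isAdj' T) (ζ₁_prim T) ^ c) e) := by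
    intro e
    have h1 := RingHom.congr_fun hψc e
    rw [← h1]
    exact (x.apply_symm_apply _).symm
  -- the corrected lift
  let xt₀ : T.Fp →+* T.Fp :=
    φ.comp ((((T.δ : T.Fp ≃+* T.Fp) ^ (p - c) : T.Fp ≃+* T.Fp)) : T.Fp →+* T.Fp)
  have hxt₀ : ∀ y : T.Fp, xt₀ y = φ (((T.δ : T.Fp ≃+* T.Fp) ^ (p - c)) y) := fun _ => rfl
  have hres : ∀ e : E' T, xt₀ (e : T.Fp) = ((x e : E' T) : T.Fp) := by
    intro e
    rw [hxt₀, ← coe_deck_pow, ← hφ'coe, hφ'x]
    congr 2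
    have h2 : (deck (isAdj' T) (ζ₁_prim T) ^ c) ((deck (isAdj' T) (ζ₁_prim T) ^ (p - c)) e)
        = (deck (isAdj' T) (ζ₁_prim T) ^ (c + (p - c))) e := by
      rw [pow_add]
      rfl
    rw [h2, Nat.add_sub_cancel' hc.le, deck_pow_p]
    rfl
  -- surjectivity of `φ` through the lift of `τ⁻¹`
  obtain ⟨φm, hφm, -, -⟩ := exists_lift_conj hσ ((A.inertiaSubgroupIn ℚ).inv_mem hτ)
  have hover : IsOver (φ.comp φm) (1 : FK N →+* FK N) := by
    intro a
    rw [RingHom.comp_apply, hφm a, hφ]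
    congr 1
    show arithmeticRingAut (modularFunctionFieldFull N) τ
      (arithmeticRingAut (modularFunctionFieldFull N) τ⁻¹ a) = a
    rw [← arithmeticRingAut_mul_apply, mul_inv_cancel, arithmeticRingAut_one_apply]
  obtain ⟨c₂, -, hc₂⟩ :=
    exists_eq_deck_pow (isAdj T) (ζF_prim T) hp.ne_zero T.g₀_ne_zero hover
  have hsurjφ : Function.Surjective φ := by
    intro y
    refine ⟨φm ((((T.δ : T.Fp ≃+* T.Fp) ^ c₂ : T.Fp ≃+* T.Fp)).symm y), ?_⟩
    have h1 := RingHom.congr_fun hc₂ ((((T.δ : T.Fp ≃+* T.Fp) ^ c₂ : T.Fp ≃+* T.Fp)).symm y)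
    rw [RingHom.comp_apply, deck_pow_eq_δ] at h1
    rw [h1]
    exact RingEquiv.apply_symm_apply _ y
  have hsurj : Function.Surjective xt₀ := by
    intro y
    obtain ⟨w, rfl⟩ := hsurjφ y
    refine ⟨(((T.δ : T.Fp ≃+* T.Fp) ^ (p - c) : T.Fp ≃+* T.Fp)).symm w, ?_⟩
    rw [hxt₀, RingEquiv.apply_symm_apply]
  refine ⟨RingEquiv.ofBijective xt₀ ⟨xt₀.injective, hsurj⟩, x, ?_, ?_, ?_, hx1, hx2, hx4, hx5, hx6⟩
  · intro a
    show xt₀ (algebraMap (FK N) T.Fp a) = _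
    rw [hxt₀]
    have h1 : ∀ n : ℕ, ((T.δ : T.Fp ≃+* T.Fp) ^ n) (algebraMap (FK N) T.Fp a)
        = algebraMap (FK N) T.Fp a := by
      intro n
      induction n with
      | zero => rfl
      | succ n ih =>
        rw [pow_succ]
        show ((T.δ : T.Fp ≃+* T.Fp) ^ n) (T.δ (algebraMap (FK N) T.Fp a)) = _
        rw [T.δ_algebraMap, ih]
    rw [h1, hφ a]
    rfl
  · intro y
    show xt₀ (T.δ y) = T.δ (xt₀ y)
    rw [hxt₀, hxt₀, ← hφδ]
    congr 1
    have h1 : ∀ n : ℕ, ((T.δ : T.Fp ≃+* T.Fp) ^ n) (T.δ y) = T.δ (((T.δ : T.Fp ≃+* T.Fp) ^ n) y) := by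
      intro n
      rw [← RingAut.mul_apply, ← RingAut.mul_apply, ← pow_succ, ← pow_succ']
    exact h1 _
  · intro e
    exact (hres e).symm

variable {T} in
/-- **the tame generator as a semilinear automorphism of `T.Fp / ℚ̄`** with base automorphism
`τ`. -/
theorem exists_tame_semilinear (hσ : SigmaRel T) {τ : GQ} (hτ : τ ∈ A.inertiaSubgroupIn ℚ) :
    ∃ (g : SemilinearAut Qb T.Fp) (x : E' T ≃+* E' T),
      SemilinearAut.baseAut g = (τ : Qb ≃+* Qb) ∧
      (∀ a : FK N, g • algebraMap (FK N) T.Fp a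
        = algebraMap (FK N) T.Fp (arithmeticRingAut (modularFunctionFieldFull N) τ a)) ∧
      (∀ y : T.Fp, g • T.δ y = T.δ (g • y)) ∧
      (∀ e : E' T, ((x e : E' T) : T.Fp) = g • (e : T.Fp)) ∧
      (∀ a, x (algebraMap (F₁ N A ζ) (E' T) a) = algebraMap (F₁ N A ζ) (E' T) (tauF₁ T hτ a)) ∧
      x ^ (p - 1) = 1 ∧
      IsOver (x : E' T →+* E' T) ((tauF₁ T hτ : F₁ N A ζ ≃+* F₁ N A ζ) : F₁ N A ζ →+* F₁ N A ζ) ∧
      Commute (x : E' T →+* E' T) (deck (isAdj' T) (ζ₁_prim T)) ∧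
      (x : E' T →+* E' T) ^ (p - 1) = 1 := by
  obtain ⟨xt, x, h1, h2, h3, h4, h5, h6, h7, h8⟩ := exists_tame_ext hσ hτ
  have hmem : ((xt, (τ : Qb ≃+* Qb)) : RingAut T.Fp × RingAut Qb) ∈ SemilinearAut Qb T.Fp := by
    intro a
    show xt (algebraMap Qb T.Fp a) = algebraMap Qb T.Fp (τ a)
    rw [IsScalarTower.algebraMap_apply Qb (FK N) T.Fp a, h1, arithmeticRingAut_algebraMap,
      ← IsScalarTower.algebraMap_apply Qb (FK N) T.Fp]
  exact ⟨⟨(xt, (τ : Qb ≃+* Qb)), hmem⟩, x, rfl, h1, h2, h3, h4, h5, h6, h7, h8⟩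

end Fermat.Agent.GF.KCover.Int.TameExt

end
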