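/-
GATE-F / GF-KCOVER-INST-FIELD-MOD, file 4 (helper56, second seat of helper3):
**the tame generator on helper31's subgroup `Us T` of the `K′`-rational units of the cover** =
the binders `(a, hd, i1, i2, hfix)` of helper84's `NL0Plug.nl_on_subgroup`.

* `actU T hgx : fixedUnits I′ T.Fp →* fixedUnits I′ T.Fp` — the semilinear extension `x̃` of the tame
  generator (`Int/TameExt`) on the `K′`-rational units; `toE'_actU`, `actU_iterate_eq`;
* `smul_jCover` : `x̃` fixes `j`; `actU_mem_Us` : `x̃ (Us T) ⊆ Us T`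
  (helper57 `UsGroup.smul_mem_regDiv`);
* `actUs T hgx hgJ : Us T →* Us T`, `actUs_iterate_eq`, `wOf_actU`;
* **`exists_tame_action`** : everything in one statement.
-/
import Fermat.Agent.GF.KCover.Int.TameExt
import Fermat.Agent.GF.F2Asm.UsInst
import Fermat.Agent.GF.KCover.Node.UsGroup

set_option autoImplicit false
set_option linter.unusedSectionVars false
set_option linter.style.haveILetI false

noncomputable section

namespace Fermat.Agent.GF.KCover.Int.TameUs

open ModularCurve Polynomial AlgebraicCurve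
open Fermat.Agent.GK.SS Fermat.Agent.GK.AL Fermat.Agent.GJ.KumGroup Fermat.Agent.GF.Peu
open Fermat.Agent.GJ.Kum.KumType
open Fermat.Agent.GJ.CycChar Fermat.Agent.GF.F2Asm.OmegaProj
open Fermat.Agent.GF.F2Asm.Inst Fermat.Agent.GF.KCover
open Fermat.Agent.GF.KCover.Field Fermat.Agent.GF.KCover.Field.WDataOf
open Fermat.Agent.GF.KCover.Field.Disc Fermat.Agent.GF.KCover.Int
open Fermat.Agent.GF.KCover.Int.TameLift Fermat.Agent.GF.KCover.Int.TameExt
open Fermat.Agent.GF.F2Asm Fermat.Agent.GF.KCover.Node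

local notation "Qb" => AlgebraicClosure ℚ
local notation "GQ" => (AlgebraicClosure ℚ ≃ₐ[ℚ] AlgebraicClosure ℚ)

variable {N : ℕ} [NeZero N] {p : ℕ} [hpF : Fact p.Prime] {A : ValuationSubring Qb} {ζ : Qb}

attribute [local instance] actFK algE'

variable (T : TameDatum N p A ζ)

section Act

variable {g : SemilinearAut Qb T.Fp} {x : E' T ≃+* E' T}
  (hgx : ∀ e : E' T, ((x e : E' T) : T.Fp) = g • (e : T.Fp))

/-- **`x̃` on the `K′`-rational units of the cover.** -/
def actU : fixedUnits (tameGroup A ζ) T.Fp →* fixedUnits (tameGroup A ζ) T.Fp where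
  toFun y := ⟨Units.map ((SemilinearAut.toRingAut g : T.Fp ≃+* T.Fp) : T.Fp →* T.Fp) (y : T.Fpˣ),
    fun ρ => by
      show ρ • (SemilinearAut.toRingAut g ((y : T.Fpˣ) : T.Fp))
        = SemilinearAut.toRingAut g ((y : T.Fpˣ) : T.Fp)
      have h1 : SemilinearAut.toRingAut g ((y : T.Fpˣ) : T.Fp) = ((x (toE' T y) : E' T) : T.Fp) :=
        (hgx (toE' T y)).symm
      rw [h1]
      exact (x (toE' T y)).2 ρ⟩
  map_one' := by
    apply Subtype.ext
    apply Units.ext
    show SemilinearAut.toRingAut g (1 : T.Fp) = 1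
    exact map_one _
  map_mul' y z := by
    apply Subtype.ext
    apply Units.ext
    show SemilinearAut.toRingAut g (((y : T.Fpˣ) : T.Fp) * ((z : T.Fpˣ) : T.Fp))
      = SemilinearAut.toRingAut g ((y : T.Fpˣ) : T.Fp)
        * SemilinearAut.toRingAut g ((z : T.Fpˣ) : T.Fp)
    exact map_mul _ _ _

theorem coe_actU (y : fixedUnits (tameGroup A ζ) T.Fp) :
    (((actU T hgx y : fixedUnits (tameGroup A ζ) T.Fp) : T.Fpˣ) : T.Fp)
      = g • ((y : T.Fpˣ) : T.Fp) := rfl

theorem toE'_actU (y : fixedUnits (tameGroup A ζ) T.Fp) :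
    toE' T (actU T hgx y) = x (toE' T y) := by
  apply Subtype.ext
  rw [coe_toE', coe_actU, hgx]
  rfl

theorem toE'_actU_iterate (n : ℕ) (y : fixedUnits (tameGroup A ζ) T.Fp) :
    toE' T ((actU T hgx)^[n] y) = (x ^ n) (toE' T y) := by
  induction n generalizing y with
  | zero => rfl
  | succ n ih =>
    rw [Function.iterate_succ_apply, ih, toE'_actU, pow_succ]
    rfl

theorem toE'_injective : Function.Injective (toE' T) := by
  intro y z h
  apply Subtype.ext
  apply Units.ext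
  exact congrArg Subtype.val h

/-- `x ^ d = 1 ⟹ x̃ ^ d = id` on the `K′`-rational units. -/
theorem actU_iterate_eq {d : ℕ} (hxd : x ^ d = 1) (y : fixedUnits (tameGroup A ζ) T.Fp) :
    (actU T hgx)^[d] y = y := by
  apply toE'_injective T
  rw [toE'_actU_iterate, hxd]
  rfl

/-- `x̃`-fixed `K′`-rational units lie in the fixed field of the tame generator. -/
theorem toE'_mem_fixedTame {y : fixedUnits (tameGroup A ζ) T.Fp} (hy : actU T hgx y = y) :
    toE' T y ∈ fixedTame x := by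
  rw [mem_fixedTame, ← toE'_actU T hgx, hy]

/-- **`w_k (x̃ y) = w_k y`.** -/
theorem wOf_actU {V : GalVal N A} (hD : IsDisc (valF₁ T V) (ϖ₁ T)) {γ : Pack.Lc hD}
    (hγ : γ ^ p = Pack.jc hD (g₁ T))
    (hA : (p : Qb) ∈ A.nonunits) {τ : GQ} (hτ : τ ∈ A.inertiaSubgroupIn ℚ)
    (hx : IsOver (x : E' T →+* E' T)
      ((tauF₁ T hτ : F₁ N A ζ ≃+* F₁ N A ζ) : F₁ N A ζ →+* F₁ N A ζ))
    (hxδ : Commute (x : E' T →+* E' T) (deck (isAdj' T) (ζ₁_prim T)))
    (hxd : (x : E' T →+* E' T) ^ (p - 1) = 1)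
    (k : ZMod p) (y : fixedUnits (tameGroup A ζ) T.Fp) :
    wOf T hD hγ k (actU T hgx y) = wOf T hD hγ k y :=
  wOf_tame T hD hγ hA hτ hx hxδ hxd k y (actU T hgx y) (toE'_actU T hgx y)

/-! ### stability of `Us` -/

/-- `x̃` fixes `j`. -/
theorem smul_jCover {τ : GQ}
    (hgF : ∀ a : FK N, g • algebraMap (FK N) T.Fp a
      = algebraMap (FK N) T.Fp (arithmeticRingAut (modularFunctionFieldFull N) τ a)) :
    g • UsInst.jCover T = UsInst.jCover T := by
  unfold UsInst.jCover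
  rw [hgF]
  congr 1
  rw [jF_eq_gen]
  exact galF_gen τ _

theorem mem_Us_iff_mem_regDiv {y : fixedUnits (tameGroup A ζ) T.Fp} :
    y ∈ UsInst.Us T ↔ (y : T.Fpˣ) ∈ UsGroup.regDiv Qb (UsInst.jCover T) p := Iff.rfl

/-- **`x̃ (Us T) ⊆ Us T`.** -/
theorem actU_mem_Us (hgJ : g • UsInst.jCover T = UsInst.jCover T) {y : fixedUnits (tameGroup A ζ) T.Fp}
    (hy : y ∈ UsInst.Us T) : actU T hgx y ∈ UsInst.Us T := by
  rw [mem_Us_iff_mem_regDiv] at hy ⊢
  exact UsGroup.smul_mem_regDiv g hgJ hy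

/-- **the tame generator on `Us T`** = the binder `a` of `NL0Plug.nl_on_subgroup`. -/
def actUs (hgJ : g • UsInst.jCover T = UsInst.jCover T) : UsInst.Us T →* UsInst.Us T where
  toFun u := ⟨actU T hgx (u : fixedUnits (tameGroup A ζ) T.Fp), actU_mem_Us T hgx hgJ u.2⟩
  map_one' := by
    apply Subtype.ext
    show actU T hgx ((1 : UsInst.Us T) : fixedUnits (tameGroup A ζ) T.Fp) = _
    rw [Subgroup.coe_one, map_one]
  map_mul' u v := by
    apply Subtype.ext
    show actU T hgx ((u * v : UsInst.Us T) : fixedUnits (tameGroup A ζ) T.Fp) = _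
    rw [Subgroup.coe_mul, map_mul]
    rfl

theorem coe_actUs (hgJ : g • UsInst.jCover T = UsInst.jCover T) (u : UsInst.Us T) :
    ((actUs T hgx hgJ u : UsInst.Us T) : fixedUnits (tameGroup A ζ) T.Fp)
      = actU T hgx (u : fixedUnits (tameGroup A ζ) T.Fp) := rfl

theorem coe_actUs_iterate (hgJ : g • UsInst.jCover T = UsInst.jCover T) (n : ℕ) (u : UsInst.Us T) :
    (((actUs T hgx hgJ)^[n] u : UsInst.Us T) : fixedUnits (tameGroup A ζ) T.Fp)
      = (actU T hgx)^[n] (u : fixedUnits (tameGroup A ζ) T.Fp) := by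
  induction n generalizing u with
  | zero => rfl
  | succ n ih =>
    rw [Function.iterate_succ_apply, Function.iterate_succ_apply, ih]
    rfl

/-- the binder `hd` of `NL0Plug.nl_on_subgroup`. -/
theorem actUs_iterate_eq (hgJ : g • UsInst.jCover T = UsInst.jCover T) {d : ℕ} (hxd : x ^ d = 1)
    (u : UsInst.Us T) : (actUs T hgx hgJ)^[d] u = u := by
  apply Subtype.ext
  rw [coe_actUs_iterate]
  exact actU_iterate_eq T hgx hxd _

end Act

/-! ### the package -/

/-- the binder `hcop` of `NL0Plug.nl_on_subgroup` for `d = p − 1`. -/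
theorem isCoprime_pred : IsCoprime (p : ℤ) (((p - 1 : ℕ) : ℕ) : ℤ) := by
  have hp := hpF.out
  have h1 : ((p - 1 : ℕ) : ℤ) = (p : ℤ) - 1 := by
    rw [Nat.cast_sub hp.one_lt.le, Nat.cast_one]
  rw [h1]
  exact ⟨1, -1, by ring⟩

variable {T} in
/-- **the tame generator on `Us T`, with everything `NL0Plug.nl_on_subgroup` asks of it**:
`a : Us T →* Us T` with `a^[p − 1] = id`, induced by a semilinear automorphism `g` of `T.Fp / ℚ̄`
over `τ` (commuting with `T.δ`), equal on the `K′`-rational functions to a tame generator `x` of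
`E′ T` over `tauF₁`; all the `wOf` are `a`-invariant; `a`-fixed elements lie in `fixedTame x`. -/
theorem exists_tame_action (hσ : SigmaRel T) (hA : (p : Qb) ∈ A.nonunits) {τ : GQ}
    (hτ : τ ∈ A.inertiaSubgroupIn ℚ) :
    ∃ (a : UsInst.Us T →* UsInst.Us T) (x : E' T ≃+* E' T) (g : SemilinearAut Qb T.Fp),
      (∀ u, a^[p - 1] u = u) ∧
      (∀ u : UsInst.Us T,
        ((((a u : UsInst.Us T) : fixedUnits (tameGroup A ζ) T.Fp) : T.Fpˣ) : T.Fp)
          = g • ((((u : UsInst.Us T) : fixedUnits (tameGroup A ζ) T.Fp) : T.Fpˣ) : T.Fp)) ∧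
      (∀ u : UsInst.Us T, toE' T (a u : fixedUnits (tameGroup A ζ) T.Fp)
        = x (toE' T (u : fixedUnits (tameGroup A ζ) T.Fp))) ∧
      (∀ u : UsInst.Us T, a u = u →
        toE' T (u : fixedUnits (tameGroup A ζ) T.Fp) ∈ fixedTame x) ∧
      (∀ {V : GalVal N A} (hD : IsDisc (valF₁ T V) (ϖ₁ T)) {γ : Pack.Lc hD}
        (hγ : γ ^ p = Pack.jc hD (g₁ T)) (k : ZMod p) (u : UsInst.Us T),
        wOf T hD hγ k (a u : fixedUnits (tameGroup A ζ) T.Fp)
          = wOf T hD hγ k (u : fixedUnits (tameGroup A ζ) T.Fp)) ∧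
      SemilinearAut.baseAut g = (τ : Qb ≃+* Qb) ∧
      (∀ b : FK N, g • algebraMap (FK N) T.Fp b
        = algebraMap (FK N) T.Fp (arithmeticRingAut (modularFunctionFieldFull N) τ b)) ∧
      (∀ y : T.Fp, g • T.δ y = T.δ (g • y)) ∧
      (∀ e : E' T, ((x e : E' T) : T.Fp) = g • (e : T.Fp)) ∧
      x ^ (p - 1) = 1 ∧
      IsOver (x : E' T →+* E' T) ((tauF₁ T hτ : F₁ N A ζ ≃+* F₁ N A ζ) : F₁ N A ζ →+* F₁ N A ζ) ∧
      Commute (x : E' T →+* E' T) (deck (isAdj' T) (ζ₁_prim T)) := by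
  obtain ⟨g, x, h1, h2, h3, h4, -, h6, h7, h8, h9⟩ := exists_tame_semilinear hσ hτ
  have hgJ : g • UsInst.jCover T = UsInst.jCover T := smul_jCover T h2
  refine ⟨actUs T h4 hgJ, x, g, fun u => actUs_iterate_eq T h4 hgJ h6 u, fun u => rfl,
    fun u => toE'_actU T h4 _, ?_, ?_, h1, h2, h3, h4, h6, h7, h8⟩
  · intro u hu
    apply toE'_mem_fixedTame T h4
    have := congrArg (fun v : UsInst.Us T => (v : fixedUnits (tameGroup A ζ) T.Fp)) hu
    exact this
  · intro V hD γ hγ k u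
    exact wOf_actU T h4 hD hγ hA hτ h7 h8 h9 k _

end Fermat.Agent.GF.KCover.Int.TameUs

end
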