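/-
GATE-F / GF-KCOVER-INST-FIELD-MOD, file 5 (helper56): **helper84's `NL0Plug.nl_on_subgroup` with
the tame generator plugged** — on the concrete cover `T.Fp`, `G = fixedUnits I′ T.Fp`,
`Us = UsInst.Us T`, `(w1, w2) = ((wData …).w₁ k1, (wData …).w₂ k2)`, `a`, `hd`, `hcop`, `i1`, `i2`,
`hfix` all discharged by `Int/TameUs.exists_tame_action`; `K0 := fixedTame x` with
`ι′ = (E′ T ↪ T.Fp) ∘ (fixedTame x ↪ E′ T)`.  Binders left: `inn` (the `a`-invariance of `nodeOrd`,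
helper42) and `NL0` (the node lemma for the `K₀`-rational functions, `nl0_residue_ordRed`).
-/
import Fermat.Agent.GF.KCover.Int.TameUs
import Fermat.Agent.GF.KCover.Node.NL0Plug

set_option autoImplicit false
set_option linter.unusedSectionVars false
set_option linter.unusedVariables false

noncomputable section

namespace Fermat.Agent.GF.KCover.Int.TameNL

open ModularCurve Polynomial AlgebraicCurve
open Fermat.Agent.GK.SS Fermat.Agent.GK.AL Fermat.Agent.GJ.KumGroup Fermat.Agent.GF.Peu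
open Fermat.Agent.GF.F2Asm.Inst Fermat.Agent.GF.KCover Fermat.Agent.GF.F2Asm
open Fermat.Agent.GF.KCover.Field Fermat.Agent.GF.KCover.Field.WDataOf
open Fermat.Agent.GF.KCover.Field.Disc Fermat.Agent.GF.KCover.Int
open Fermat.Agent.GF.KCover.Int.TameLift Fermat.Agent.GF.KCover.Int.TameExt
open Fermat.Agent.GF.KCover.Int.TameUs
open Fermat.Agent.GF.KCover.Node Fermat.Agent.GJ.J1 Fermat.Agent.GF.Trop

local notation "Qb" => AlgebraicClosure ℚ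
local notation "GQ" => (AlgebraicClosure ℚ ≃ₐ[ℚ] AlgebraicClosure ℚ)

variable {N : ℕ} [NeZero N] {p : ℕ} [hpF : Fact p.Prime] {A : ValuationSubring Qb} {ζ : Qb}

attribute [local instance] actFK algE'

/-- the inclusion of the `K₀`-rational functions `fixedTame x ⊆ E′ T ⊆ T.Fp`. -/
def inclK0 (T : TameDatum N p A ζ) (x : E' T ≃+* E' T) : fixedTame x →+* T.Fp :=
  (E' T).subtype.comp (fixedTame x).subtype

theorem inclK0_apply (T : TameDatum N p A ζ) (x : E' T ≃+* E' T) (u₀ : fixedTame x) :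
    inclK0 T x u₀ = (((u₀ : E' T)) : T.Fp) := rfl

/-- **NL on `Us T` from `NL0` on the `K₀`-rational functions**, tame generator plugged. -/
theorem exists_nl_on_Us (T : TameDatum N p A ζ) (hσ : SigmaRel T) (hA : (p : Qb) ∈ A.nonunits)
    {τ : GQ} (hτ : τ ∈ A.inertiaSubgroupIn ℚ) {V₁ V₂ : GalVal N A}
    (hD₁ : IsDisc (valF₁ T V₁) (ϖ₁ T)) (hD₂ : IsDisc (valF₁ T V₂) (ϖ₁ T))
    {γ₁ : Pack.Lc hD₁} (hγ₁ : γ₁ ^ p = Pack.jc hD₁ (g₁ T))
    {γ₂ : Pack.Lc hD₂} (hγ₂ : γ₂ ^ p = Pack.jc hD₂ (g₁ T)) :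
    ∃ (x : E' T ≃+* E' T) (g : SemilinearAut Qb T.Fp) (a : UsInst.Us T →* UsInst.Us T),
      (∀ u : UsInst.Us T,
        ((((a u : UsInst.Us T) : fixedUnits (tameGroup A ζ) T.Fp) : T.Fpˣ) : T.Fp)
          = g • ((((u : UsInst.Us T) : fixedUnits (tameGroup A ζ) T.Fp) : T.Fpˣ) : T.Fp)) ∧
      (∀ u : UsInst.Us T, toE' T (a u : fixedUnits (tameGroup A ζ) T.Fp)
        = x (toE' T (u : fixedUnits (tameGroup A ζ) T.Fp))) ∧
      SemilinearAut.baseAut g = (τ : Qb ≃+* Qb) ∧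
      (∀ b : FK N, g • algebraMap (FK N) T.Fp b
        = algebraMap (FK N) T.Fp (arithmeticRingAut (modularFunctionFieldFull N) τ b)) ∧
      (∀ y : T.Fp, g • T.δ y = T.δ (g • y)) ∧
      (∀ e : E' T, ((x e : E' T) : T.Fp) = g • (e : T.Fp)) ∧
      x ^ (p - 1) = 1 ∧
      IsOver (x : E' T →+* E' T) ((tauF₁ T hτ : F₁ N A ζ ≃+* F₁ N A ζ) : F₁ N A ζ →+* F₁ N A ζ) ∧
      Commute (x : E' T →+* E' T) (deck (isAdj' T) (ζ₁_prim T)) ∧
      ∀ {k Ft : Type} [Field k] [Field Ft] [Algebra k Ft]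
        (R₁ : RedData Qb T.Fp k Ft) (hun₁ : Unram R₁) (Pl : Place k Ft) (k1 k2 : ZMod p)
        (inn : ∀ u : UsInst.Us T,
          OrdRedExt.nodeOrd R₁ hun₁ Pl (fixedUnits (tameGroup A ζ) T.Fp)
              (a u : fixedUnits (tameGroup A ζ) T.Fp) =
            OrdRedExt.nodeOrd R₁ hun₁ Pl (fixedUnits (tameGroup A ζ) T.Fp)
              (u : fixedUnits (tameGroup A ζ) T.Fp))
        (NL0 : ∀ (u : UsInst.Us T) (u₀ : fixedTame x),
          ((((u : fixedUnits (tameGroup A ζ) T.Fp)) : T.Fpˣ) : T.Fp) = inclK0 T x u₀ →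
          (wData T hA hD₁ hD₂ hγ₁ hγ₂).w₁ k1 (u : fixedUnits (tameGroup A ζ) T.Fp) = 0 →
          (wData T hA hD₁ hD₂ hγ₁ hγ₂).w₂ k2 (u : fixedUnits (tameGroup A ζ) T.Fp) = 0 →
          (p : ℤ) ∣ ordRed R₁ hun₁ Pl (inclK0 T x u₀))
        (y : fixedUnits (tameGroup A ζ) T.Fp) (hy : y ∈ UsInst.Us T)
        (hy1 : (wData T hA hD₁ hD₂ hγ₁ hγ₂).w₁ k1 y = 0)
        (hy2 : (wData T hA hD₁ hD₂ hγ₁ hγ₂).w₂ k2 y = 0),
        (p : ℤ) ∣ OrdRedExt.nodeOrd R₁ hun₁ Pl (fixedUnits (tameGroup A ζ) T.Fp) y := by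
  obtain ⟨a, x, g, hd, hag, hax, hfix, hw, hb1, hb2, hb3, hb4, hb5, hb6, hb7⟩ :=
    exists_tame_action hσ hA hτ
  refine ⟨x, g, a, hag, hax, hb1, hb2, hb3, hb4, hb5, hb6, hb7, ?_⟩
  intro k Ft _ _ _ R₁ hun₁ Pl k1 k2 inn NL0 y hy hy1 hy2
  refine NL0Plug.nl_on_subgroup (inclK0 T x) R₁ hun₁ Pl
    (fixedUnits (tameGroup A ζ) T.Fp) (UsInst.Us T) a hd isCoprime_pred
    ((wData T hA hD₁ hD₂ hγ₁ hγ₂).w₁ k1) ((wData T hA hD₁ hD₂ hγ₁ hγ₂).w₂ k2)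
    ((wData T hA hD₁ hD₂ hγ₁ hγ₂).w₁_mul k1) ((wData T hA hD₁ hD₂ hγ₁ hγ₂).w₂_mul k2)
    (fun u => hw hD₁ hγ₁ k1 u) (fun u => hw hD₂ hγ₂ k2 u) inn ?_ NL0 y hy hy1 hy2
  intro u hu
  exact ⟨⟨toE' T (u : fixedUnits (tameGroup A ζ) T.Fp), hfix u hu⟩, rfl⟩

end Fermat.Agent.GF.KCover.Int.TameNL

end
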