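/-
GATE-F / GF-KCOVER-INST-FIELD-MOD, file 6 (helper56): **the `K₀`-rational functions inside the
fixed field of the tame generator.**

`F₀ = modularFunctionFieldFullC (K0 A) N = K₀(X₀(N))` (`K₀ = ℚ̄^{I_A}`, `GL/Val/GaussK0`),
`mapK0Bar A N : F₀ →+* F_N`; `x : E′ T ≃+* E′ T` a tame generator over `tauF₁ T hτ`
(`Int/TameLift`), `K0 := fixedTame x` its fixed field.

* `embF₁ : F₀ →+* F₁ N A ζ`, `embE' T : F₀ →+* E′ T`, `coe_embE'`;
* `exists_embF₁_of_fixed` : for `τ` a GENERATOR of `I_A / I′` (`hgen` of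
  `Int.exists_tame_generator`), the `tauF₁`-fixed elements of `F₁` are `K₀`-rational
  (`fixed_of_tauFix_fixed` + helper80 `RatLiftK0.exists_mapK0Bar_of_fixed`);
* **`hF0`** : the binder `hF0` of `FixedGen.exists_poly_of_fixed` / `FixedGenPlug` for
  `F0 := (embE' T).fieldRange` — elements of `E′ T` fixed by the deck transformation and by `x` are
  `K₀`-rational functions of `F_N`;
* `embK0 T hx1 : F₀ →+* fixedTame x`, `algK0x` (reducible `Algebra F₀ (fixedTame x)`),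
  `inclK0_embK0` : the composite to `T.Fp` is `algebraMap (FK N) T.Fp ∘ mapK0Bar`.
-/
import Fermat.Agent.GF.KCover.Int.TameNL
import Fermat.Agent.GL.Red.RatLiftK0
import Fermat.Agent.GF.KCover.Node.DeckFixed

set_option autoImplicit false
set_option linter.unusedSectionVars false
set_option linter.style.haveILetI false

noncomputable section

namespace Fermat.Agent.GF.KCover.Int.K0Model

open ModularCurve Polynomial AlgebraicCurve
open Fermat.Agent.GK.SS Fermat.Agent.GK.AL Fermat.Agent.GJ.KumGroup Fermat.Agent.GF.Peu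
open Fermat.Agent.GJ.Kum.KumType
open Fermat.Agent.GF.F2Asm.Inst Fermat.Agent.GF.KCover
open Fermat.Agent.GF.KCover.Field Fermat.Agent.GF.KCover.Field.WDataOf
open Fermat.Agent.GF.KCover.Int Fermat.Agent.GF.KCover.Int.TameLift
open Fermat.Agent.GF.KCover.Int.TameNL
open Fermat.Agent.GL.Val.GaussK0 Fermat.Agent.GL.Val.SecondK0 Fermat.Agent.GL.RatLiftK0
open Fermat.Agent.GF.KCover.Node

local notation "Qb" => AlgebraicClosure ℚ
local notation "GQ" => (AlgebraicClosure ℚ ≃ₐ[ℚ] AlgebraicClosure ℚ)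

variable {N : ℕ} [NeZero N] {p : ℕ} [hpF : Fact p.Prime] {A : ValuationSubring Qb} {ζ : Qb}

attribute [local instance] actFK algE'

/-- `K₀(X₀(N)) → F_{K′}`. -/
def embF₁ (N : ℕ) [NeZero N] (A : ValuationSubring Qb) (ζ : Qb) :
    modularFunctionFieldFullC (K0 A) N →+* F₁ N A ζ :=
  (mapK0Bar A N).codRestrict (F₁ N A ζ)
    (fun x0 => mem_F₁.2 (fun ρ hρ => galF_mapK0Bar A N ρ hρ.1 x0))

theorem coe_embF₁ (x0 : modularFunctionFieldFullC (K0 A) N) :
    ((embF₁ N A ζ x0 : F₁ N A ζ) : FK N) = mapK0Bar A N x0 := rfl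

variable (T : TameDatum N p A ζ)

/-- `K₀(X₀(N)) → E′ T`. -/
def embE' : modularFunctionFieldFullC (K0 A) N →+* E' T :=
  (algebraMap (F₁ N A ζ) (E' T)).comp (embF₁ N A ζ)

theorem coe_embE' (x0 : modularFunctionFieldFullC (K0 A) N) :
    ((embE' T x0 : E' T) : T.Fp) = algebraMap (FK N) T.Fp (mapK0Bar A N x0) := rfl

variable {τ : GQ} (hτ : τ ∈ A.inertiaSubgroupIn ℚ)

/-- `K₀`-rational functions are fixed by `tauF₁`. -/
theorem tauF₁_embF₁ (x0 : modularFunctionFieldFullC (K0 A) N) :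
    tauF₁ T hτ (embF₁ N A ζ x0) = embF₁ N A ζ x0 := by
  apply Subtype.ext
  rw [coe_tauF₁, coe_embF₁]
  exact galF_mapK0Bar A N τ hτ x0

/-- **for a generator `τ` of `I_A / I′`, the `tauF₁`-fixed elements of `F₁` are `K₀`-rational.** -/
theorem exists_embF₁_of_fixed
    (hgen : ∀ σ ∈ A.inertiaSubgroupIn ℚ, ∃ m : ℕ, IsTameFix A ζ ((τ ^ m)⁻¹ * σ))
    (a : F₁ N A ζ) (ha : tauF₁ T hτ a = a) :
    ∃ x0 : modularFunctionFieldFullC (K0 A) N, embF₁ N A ζ x0 = a := by
  have hfix := fixed_of_tauFix_fixed N T.prim hpF.out.pos hτ hgen a ha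
  obtain ⟨x0, hx0⟩ := exists_mapK0Bar_of_fixed A N (a : FK N) hfix
  exact ⟨x0, Subtype.ext hx0⟩

/-- **the binder `hF0` of `FixedGen` / `FixedGenPlug` on the concrete cover**, with
`F0 := (embE' T).fieldRange`. -/
theorem hF0 (hgen : ∀ σ ∈ A.inertiaSubgroupIn ℚ, ∃ m : ℕ, IsTameFix A ζ ((τ ^ m)⁻¹ * σ))
    {x : E' T ≃+* E' T}
    (hx : IsOver (x : E' T →+* E' T)
      ((tauF₁ T hτ : F₁ N A ζ ≃+* F₁ N A ζ) : F₁ N A ζ →+* F₁ N A ζ)) :
    ∀ y : E' T, DeckFixed.deckEquiv (isAdj' T) (ζ₁_prim T) hpF.out.ne_zero y = y → x y = y →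
      y ∈ (embE' T).fieldRange := by
  refine DeckFixed.hF0_of_range (isAdj' T) (ζ₁_prim T) hpF.out.ne_zero x hx _ ?_
  intro a ha
  obtain ⟨x0, rfl⟩ := exists_embF₁_of_fixed T hτ hgen a ha
  exact ⟨x0, rfl⟩

/-- **the binder `hfracBase` of helper37's `FixedGenPlug.isFractionRing_adjoin_traceTame`**: for a
generator `τ` of `I_A / I′` the `tauF₁`-fixed elements of `F₁` are fractions of elements of any
`R` with `Frac R = K₀(X₀(N))`. -/
theorem hfracBase {R : Type*} [CommRing R] [IsDomain R]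
    [Algebra R (modularFunctionFieldFullC (K0 A) N)]
    [IsFractionRing R (modularFunctionFieldFullC (K0 A) N)]
    (hgen : ∀ σ ∈ A.inertiaSubgroupIn ℚ, ∃ m : ℕ, IsTameFix A ζ ((τ ^ m)⁻¹ * σ))
    (a : F₁ N A ζ) (ha : tauF₁ T hτ a = a) :
    ∃ r b : R, b ≠ 0 ∧
      algebraMap (F₁ N A ζ) (E' T) a
          * embE' T (algebraMap R (modularFunctionFieldFullC (K0 A) N) b)
        = embE' T (algebraMap R (modularFunctionFieldFullC (K0 A) N) r) := by
  obtain ⟨x0, rfl⟩ := exists_embF₁_of_fixed T hτ hgen a ha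
  obtain ⟨r, b, hb, hrb⟩ :=
    IsFractionRing.div_surjective (A := R) (K := modularFunctionFieldFullC (K0 A) N) x0
  have hb0 : b ≠ 0 := nonZeroDivisors.ne_zero hb
  have hbF : algebraMap R (modularFunctionFieldFullC (K0 A) N) b ≠ 0 := by
    rw [Ne, map_eq_zero_iff _ (IsFractionRing.injective R (modularFunctionFieldFullC (K0 A) N))]
    exact hb0
  refine ⟨r, b, hb0, ?_⟩
  show embE' T x0 * embE' T (algebraMap R (modularFunctionFieldFullC (K0 A) N) b) = _
  rw [← map_mul, ← hrb, div_mul_cancel₀ _ hbF]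

section K0

variable {x : E' T ≃+* E' T}
  (hx1 : ∀ a, x (algebraMap (F₁ N A ζ) (E' T) a) = algebraMap (F₁ N A ζ) (E' T) (tauF₁ T hτ a))

include hx1 in
theorem embE'_mem_fixedTame (x0 : modularFunctionFieldFullC (K0 A) N) :
    embE' T x0 ∈ fixedTame x := by
  rw [mem_fixedTame]
  show x (algebraMap (F₁ N A ζ) (E' T) (embF₁ N A ζ x0)) = _
  rw [hx1, tauF₁_embF₁]
  rfl

/-- **`K₀(X₀(N)) → K0 := fixedTame x`.** -/
def embK0 : modularFunctionFieldFullC (K0 A) N →+* fixedTame x :=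
  (embE' T).codRestrict (fixedTame x) (embE'_mem_fixedTame T hτ hx1)

/-- the `F₀`-algebra structure of the fixed field of the tame generator. -/
@[reducible] def algK0x : Algebra (modularFunctionFieldFullC (K0 A) N) (fixedTame x) :=
  (embK0 T hτ hx1).toAlgebra

theorem inclK0_embK0 (x0 : modularFunctionFieldFullC (K0 A) N) :
    inclK0 T x (embK0 T hτ hx1 x0) = algebraMap (FK N) T.Fp (mapK0Bar A N x0) := rfl

theorem inclK0_algebraMap (x0 : modularFunctionFieldFullC (K0 A) N) :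
    letI := algK0x T hτ hx1
    inclK0 T x (algebraMap (modularFunctionFieldFullC (K0 A) N) (fixedTame x) x0)
      = algebraMap (FK N) T.Fp (mapK0Bar A N x0) := rfl

end K0

end Fermat.Agent.GF.KCover.Int.K0Model

end
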